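import Mathlib
import Fermat.Agent.S18.H754.KummerSpec

/-!
# S18, Route K, piece P5 (second half) of `coord/S18-b3b4-helper754.md`:
`KummerUnmixedStatement`, by an argument that uses NO local structure

`isIntegral_of_isIntegral_mul` : `B` integrally closed domain, `F = Frac B`, `F'/F` any field
extension, `ϖ ∈ B` prime, `s ∈ B ∖ (ϖ)`, `x ∈ F'` with `ϖ x` and `s x` integral over `B`.
Then `x` is integral over `B`.

Proof: the coefficients `g_i` of the minimal polynomial of `x` over `F` satisfy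
`ϖ^(n-i) g_i ∈ B` and `s^(n-i) g_i ∈ B` (minimal polynomials of `ϖ x`, `s x` have coefficients in
`B` since `B` is integrally closed, `IsIntegrallyClosed.minpoly_smul`), hence `g_i ∈ B` because
`ϖ` is prime and `ϖ ∤ s`.

Consequently the frozen statement `H754.KummerUnmixedStatement` holds; of its hypotheses only
`Prime ϖ` and `IsIntegrallyClosed B` are used (no noetherianity, no `RegularAlong`,
no `DivisibleDivisor`, no Kummer structure).
-/

set_option autoImplicit false
set_option linter.unusedSectionVars false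
set_option linter.unusedVariables false

noncomputable section

namespace Fermat.Agent.S18.H334

open Polynomial Fermat.Agent.S18.H754

section Unmixed

variable {B : Type*} [CommRing B] [IsDomain B] [IsIntegrallyClosed B]
  {F : Type*} [Field F] [Algebra B F] [IsFractionRing B F]
  {F' : Type*} [Field F'] [Algebra F F'] [Algebra B F'] [IsScalarTower B F F']

/-- `f ∈ F` with `ϖ^k f ∈ B` and `s^k f ∈ B`, `ϖ` prime, `ϖ ∤ s`: then `f ∈ B`. -/
theorem mem_range_of_pow_mul_mem {ϖ s : B} (hϖ : Prime ϖ) (hs : ¬ ϖ ∣ s) (k : ℕ) (f : F)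
    (h1 : f * algebraMap B F ϖ ^ k ∈ Set.range (algebraMap B F))
    (h2 : f * algebraMap B F s ^ k ∈ Set.range (algebraMap B F)) :
    f ∈ Set.range (algebraMap B F) := by
  obtain ⟨b₁, hb₁⟩ := h1
  obtain ⟨b₂, hb₂⟩ := h2
  have hinj := IsFractionRing.injective B F
  have hϖF : algebraMap B F ϖ ≠ 0 := by
    rw [Ne, map_eq_zero_iff _ hinj]; exact hϖ.ne_zero
  have hEq : b₁ * s ^ k = b₂ * ϖ ^ k := by
    apply hinj
    rw [map_mul, map_mul, map_pow, map_pow, hb₁, hb₂]
    ring
  have hsk : ¬ ϖ ∣ s ^ k := fun h => hs (hϖ.dvd_of_dvd_pow h)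
  have hdvd : ϖ ^ k ∣ b₁ :=
    hϖ.pow_dvd_of_dvd_mul_right k hsk ⟨b₂, by rw [hEq, mul_comm]⟩
  obtain ⟨b₃, hb₃⟩ := hdvd
  refine ⟨b₃, ?_⟩
  have : algebraMap B F b₃ * algebraMap B F ϖ ^ k = f * algebraMap B F ϖ ^ k := by
    rw [← hb₁, hb₃, map_mul, map_pow, mul_comm]
  exact mul_right_cancel₀ (pow_ne_zero k hϖF) this

/-- **Unmixedness, elementwise**: if `ϖ x` and `s x` are integral over the integrally closed
domain `B`, `ϖ` prime and `ϖ ∤ s`, then `x` is integral over `B`. -/
theorem isIntegral_of_isIntegral_mul {B : Type*} [CommRing B] [IsDomain B] [IsIntegrallyClosed B]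
    (F : Type*) [Field F] [Algebra B F] [IsFractionRing B F]
    {F' : Type*} [Field F'] [Algebra F F'] [Algebra B F'] [IsScalarTower B F F']
    {ϖ s : B} (hϖ : Prime ϖ) (hs : ¬ ϖ ∣ s) (x : F')
    (h1 : IsIntegral B (algebraMap B F' ϖ * x)) (h2 : IsIntegral B (algebraMap B F' s * x)) :
    IsIntegral B x := by
  have hinj := IsFractionRing.injective B F
  have hϖF : algebraMap B F ϖ ≠ 0 := by
    rw [Ne, map_eq_zero_iff _ hinj]; exact hϖ.ne_zero
  have hs0 : s ≠ 0 := by rintro rfl; exact hs (dvd_zero ϖ)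
  have hsF : algebraMap B F s ≠ 0 := by
    rw [Ne, map_eq_zero_iff _ hinj]; exact hs0
  have hϖF' : algebraMap B F' ϖ ≠ 0 := by
    rw [IsScalarTower.algebraMap_apply B F F']
    exact (map_ne_zero (algebraMap F F')).mpr hϖF
  -- `x` is integral over `F`
  have hxF : IsIntegral F x := by
    have h := (h1.tower_top (A := F)).mul
      (isIntegral_algebraMap (R := F) (x := (algebraMap B F ϖ)⁻¹))
    have : algebraMap B F' ϖ * x * algebraMap F F' (algebraMap B F ϖ)⁻¹ = x := by
      rw [map_inv₀, ← IsScalarTower.algebraMap_apply B F F']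
      field_simp
    rwa [this] at h
  -- coefficients of the minimal polynomials of `b x`
  have key : ∀ b : B, b ≠ 0 → IsIntegral B (algebraMap B F' b * x) → ∀ i : ℕ,
      (minpoly F x).coeff i * algebraMap B F b ^ ((minpoly F x).natDegree - i) ∈
        Set.range (algebraMap B F) := by
    intro b hb hbx i
    have hbF : algebraMap B F b ≠ 0 := by
      rw [Ne, map_eq_zero_iff _ hinj]; exact hb
    have hsmul : algebraMap B F b • x = algebraMap B F' b * x := by
      rw [Algebra.smul_def, ← IsScalarTower.algebraMap_apply B F F']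
    have h3 : minpoly F (algebraMap B F b • x) = (minpoly F x).scaleRoots (algebraMap B F b) :=
      IsIntegrallyClosed.minpoly_smul hbF hxF
    have h4 : minpoly F (algebraMap B F' b * x) =
        (minpoly B (algebraMap B F' b * x)).map (algebraMap B F) :=
      minpoly.isIntegrallyClosed_eq_field_fractions' F hbx
    rw [hsmul, h4] at h3
    have h5 := congrArg (fun q => q.coeff i) h3
    simp only [coeff_map, coeff_scaleRoots] at h5
    exact ⟨_, h5⟩
  have hcoeff : ∀ i : ℕ, (minpoly F x).coeff i ∈ Set.range (algebraMap B F) := fun i =>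
    mem_range_of_pow_mul_mem hϖ hs _ _ (key ϖ hϖ.ne_zero h1 i) (key s hs0 h2 i)
  have hlift : minpoly F x ∈ lifts (algebraMap B F) :=
    (lifts_iff_coeff_lifts _).mpr hcoeff
  obtain ⟨G, hGmap, -, hGmonic⟩ := lifts_and_natDegree_eq_and_monic hlift (minpoly.monic hxF)
  refine ⟨G, hGmonic, ?_⟩
  have h6 : aeval x (G.map (algebraMap B F)) = 0 := by rw [hGmap]; exact minpoly.aeval F x
  rwa [aeval_map_algebraMap, aeval_def] at h6

/-- **P5 (unmixedness)**: the frozen statement `KummerUnmixedStatement` of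
`H754/KummerSpec.lean`. -/
theorem kummerUnmixedStatement : KummerUnmixedStatement := by
  intro B _ _ _ _ F _ _ _ F' _ _ _ _ ϖ hϖ _ p _ _ u z _ _ _ _ c _ hc hcpi
  obtain ⟨s, hs, d, hd, hsc⟩ := hcpi
  have hinj := IsFractionRing.injective B F
  have hϖF' : algebraMap B F' ϖ ≠ 0 := by
    rw [IsScalarTower.algebraMap_apply B F F']
    refine (map_ne_zero (algebraMap F F')).mpr ?_
    rw [Ne, map_eq_zero_iff _ hinj]; exact hϖ.ne_zero
  have hs' : ¬ ϖ ∣ s := fun h => hs (Ideal.mem_span_singleton.mpr h)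
  refine ⟨(algebraMap B F' ϖ)⁻¹ * c, isIntegral_of_isIntegral_mul F hϖ hs' _ ?_ ?_, ?_⟩
  · rw [mul_inv_cancel_left₀ hϖF']
    exact hc
  · have : algebraMap B F' s * ((algebraMap B F' ϖ)⁻¹ * c) = d := by
      rw [mul_left_comm, hsc, inv_mul_cancel_left₀ hϖF']
    rw [this]
    exact hd
  · rw [mul_inv_cancel_left₀ hϖF']

end Unmixed

end Fermat.Agent.S18.H334
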