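import Mathlib
import Fermat.Agent.S18.H754.KummerSpec

/-!
# S18, Route K, piece P6 of `coord/S18-b3b4-helper754.md`: `KummerIdemStatement`

Proof of the frozen statement `Fermat.Agent.S18.H754.KummerIdemStatement`
(`Fermat/Agent/S18/H754/KummerSpec.lean`): the Kummer idempotents
`e_η = p⁻¹ ∑_{a<p} η^a z^a` are idempotent and orthogonal modulo `ϖ O'`, sum to one, and none of
them vanishes modulo `ϖ O'`.

Method: `InO` (= membership in `O'`, elementwise) is a ring, `InPiO` is an ideal of it;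
`(η z - 1) e_η = p⁻¹ (u - 1) ∈ ϖ O'` gives idempotency and orthogonality; nonvanishing is the
trace argument in `AdjoinRoot (X ^ p - C u)` (`Tr e_η = 1`).
-/

set_option autoImplicit false
set_option linter.unusedSectionVars false
set_option linter.unusedVariables false
set_option linter.style.haveILetI false
set_option linter.unnecessarySimpa false

noncomputable section

namespace Fermat.Agent.S18.H334

open Polynomial Fermat.Agent.S18.H754

section Calculus

variable {B : Type*} [CommRing B] {F' : Type*} [Field F'] [Algebra B F']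

/-- `y ∈ O'` (elementwise): some multiple `s y`, `s ∉ (ϖ)`, is integral over `B`. -/
def InO (ϖ : B) (y : F') : Prop :=
  ∃ s : B, s ∉ Ideal.span {ϖ} ∧ IsIntegral B (algebraMap B F' s * y)

theorem notMem_span_mul {ϖ : B} (hϖ : Prime ϖ) {s t : B} (hs : s ∉ Ideal.span {ϖ})
    (ht : t ∉ Ideal.span {ϖ}) : s * t ∉ Ideal.span {ϖ} := by
  rw [Ideal.mem_span_singleton] at hs ht ⊢
  intro h
  rcases hϖ.dvd_or_dvd h with h | h
  · exact hs h
  · exact ht h

theorem one_notMem_span {ϖ : B} (hϖ : Prime ϖ) : (1 : B) ∉ Ideal.span {ϖ} := by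
  rw [Ideal.mem_span_singleton]
  exact fun h => hϖ.not_isUnit (isUnit_of_dvd_one h)

theorem InO.of_isIntegral {ϖ : B} (hϖ : Prime ϖ) {y : F'} (hy : IsIntegral B y) : InO ϖ y :=
  ⟨1, one_notMem_span hϖ, by rwa [map_one, one_mul]⟩

theorem InO.of_algebraMap {ϖ : B} (hϖ : Prime ϖ) (b : B) : InO ϖ (algebraMap B F' b) :=
  InO.of_isIntegral hϖ isIntegral_algebraMap

theorem InO.add {ϖ : B} (hϖ : Prime ϖ) {x y : F'} (hx : InO ϖ x) (hy : InO ϖ y) :
    InO ϖ (x + y) := by
  obtain ⟨s, hs, hsx⟩ := hx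
  obtain ⟨t, ht, hty⟩ := hy
  refine ⟨s * t, notMem_span_mul hϖ hs ht, ?_⟩
  have : algebraMap B F' (s * t) * (x + y) =
      algebraMap B F' t * (algebraMap B F' s * x) + algebraMap B F' s * (algebraMap B F' t * y) := by
    rw [map_mul]; ring
  rw [this]
  exact (isIntegral_algebraMap.mul hsx).add (isIntegral_algebraMap.mul hty)

theorem InO.mul {ϖ : B} (hϖ : Prime ϖ) {x y : F'} (hx : InO ϖ x) (hy : InO ϖ y) :
    InO ϖ (x * y) := by
  obtain ⟨s, hs, hsx⟩ := hx
  obtain ⟨t, ht, hty⟩ := hy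
  refine ⟨s * t, notMem_span_mul hϖ hs ht, ?_⟩
  have : algebraMap B F' (s * t) * (x * y) =
      (algebraMap B F' s * x) * (algebraMap B F' t * y) := by
    rw [map_mul]; ring
  rw [this]
  exact hsx.mul hty

theorem InO.pow {ϖ : B} (hϖ : Prime ϖ) {x : F'} (hx : InO ϖ x) (n : ℕ) : InO ϖ (x ^ n) := by
  induction n with
  | zero => rw [pow_zero]; exact InO.of_isIntegral hϖ isIntegral_one
  | succ n ih => rw [pow_succ]; exact ih.mul hϖ hx

theorem InO.sum {ϖ : B} (hϖ : Prime ϖ) {ι : Type*} (s : Finset ι) (f : ι → F')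
    (h : ∀ i ∈ s, InO ϖ (f i)) : InO ϖ (∑ i ∈ s, f i) := by
  classical
  induction s using Finset.induction_on with
  | empty => rw [Finset.sum_empty]; exact InO.of_isIntegral hϖ isIntegral_zero
  | insert a s ha ih =>
    rw [Finset.sum_insert ha]
    exact (h a (Finset.mem_insert_self a s)).add hϖ
      (ih fun i hi => h i (Finset.mem_insert_of_mem hi))

theorem inPiO_add {ϖ : B} (hϖ : Prime ϖ) {x y : F'} (hx : InPiO ϖ x) (hy : InPiO ϖ y) :
    InPiO ϖ (x + y) := by
  obtain ⟨s, hs, c, hc, hsx⟩ := hx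
  obtain ⟨t, ht, d, hd, hty⟩ := hy
  refine ⟨s * t, notMem_span_mul hϖ hs ht,
    algebraMap B F' t * c + algebraMap B F' s * d,
    (isIntegral_algebraMap.mul hc).add (isIntegral_algebraMap.mul hd), ?_⟩
  calc algebraMap B F' (s * t) * (x + y)
      = algebraMap B F' t * (algebraMap B F' s * x) +
          algebraMap B F' s * (algebraMap B F' t * y) := by rw [map_mul]; ring
    _ = algebraMap B F' ϖ * (algebraMap B F' t * c + algebraMap B F' s * d) := by
        rw [hsx, hty]; ring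

theorem inPiO_neg {ϖ : B} {x : F'} (hx : InPiO ϖ x) : InPiO ϖ (-x) := by
  obtain ⟨s, hs, c, hc, hsx⟩ := hx
  exact ⟨s, hs, -c, hc.neg, by rw [mul_neg, hsx, mul_neg]⟩

theorem inPiO_sub {ϖ : B} (hϖ : Prime ϖ) {x y : F'} (hx : InPiO ϖ x) (hy : InPiO ϖ y) :
    InPiO ϖ (x - y) := by
  rw [sub_eq_add_neg]
  exact inPiO_add hϖ hx (inPiO_neg hy)

theorem inPiO_mul_inO {ϖ : B} (hϖ : Prime ϖ) {x y : F'} (hx : InPiO ϖ x) (hy : InO ϖ y) :
    InPiO ϖ (x * y) := by
  obtain ⟨s, hs, c, hc, hsx⟩ := hx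
  obtain ⟨t, ht, hty⟩ := hy
  refine ⟨s * t, notMem_span_mul hϖ hs ht, c * (algebraMap B F' t * y), hc.mul hty, ?_⟩
  calc algebraMap B F' (s * t) * (x * y)
      = (algebraMap B F' s * x) * (algebraMap B F' t * y) := by rw [map_mul]; ring
    _ = algebraMap B F' ϖ * (c * (algebraMap B F' t * y)) := by rw [hsx]; ring

theorem inPiO_inO_mul {ϖ : B} (hϖ : Prime ϖ) {x y : F'} (hy : InO ϖ y) (hx : InPiO ϖ x) :
    InPiO ϖ (y * x) := by
  rw [mul_comm]
  exact inPiO_mul_inO hϖ hx hy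

theorem inPiO_inO {ϖ : B} {x : F'} (hx : InPiO ϖ x) : InO ϖ x := by
  obtain ⟨s, hs, c, hc, hsx⟩ := hx
  exact ⟨s, hs, by rw [hsx]; exact isIntegral_algebraMap.mul hc⟩

theorem inPiO_of_eq_mul {ϖ : B} {x y : F'} (hy : InO ϖ y)
    (h : x = algebraMap B F' ϖ * y) : InPiO ϖ x := by
  obtain ⟨t, ht, hty⟩ := hy
  exact ⟨t, ht, algebraMap B F' t * y, hty, by rw [h]; ring⟩

theorem inPiO_congr {ϖ : B} {x y : F'} (h : x = y) (hx : InPiO ϖ x) : InPiO ϖ y := h ▸ hx

theorem inPiO_sum {ϖ : B} (hϖ : Prime ϖ) {ι : Type*} (s : Finset ι) (f : ι → F')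
    (h : ∀ i ∈ s, InPiO ϖ (f i)) : InPiO ϖ (∑ i ∈ s, f i) := by
  classical
  induction s using Finset.induction_on with
  | empty =>
    rw [Finset.sum_empty]
    exact ⟨1, one_notMem_span hϖ, 0, isIntegral_zero, by rw [mul_zero, mul_zero]⟩
  | insert a s ha ih =>
    rw [Finset.sum_insert ha]
    exact inPiO_add hϖ (h a (Finset.mem_insert_self a s))
      (ih fun i hi => h i (Finset.mem_insert_of_mem hi))

end Calculus

section Units

variable {B : Type*} [CommRing B] [IsDomain B]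

/-- Two distinct `p`-th roots of unity in a domain in which `p` is invertible differ by a unit. -/
theorem isUnit_sub_of_pow_eq_one (p : ℕ) (hp0 : 0 < p) (hpu : IsUnit (p : B)) {η η' : B}
    (hη : η ^ p = 1) (hη' : η' ^ p = 1) (hne : η ≠ η') : IsUnit (η - η') := by
  obtain ⟨q, rfl⟩ : ∃ q, p = q + 1 := ⟨p - 1, by omega⟩
  set ρ : B := η * η' ^ q with hρ
  have hη'u : IsUnit η' := IsUnit.of_mul_eq_one (η' ^ q) (by rw [← pow_succ', hη'])
  have hρη' : ρ * η' = η := by rw [hρ, mul_assoc, ← pow_succ, hη', mul_one]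
  have hρp : ρ ^ (q + 1) = 1 := by
    rw [hρ, mul_pow, hη, one_mul, ← pow_mul, mul_comm, pow_mul, hη', one_pow]
  have hρ1 : ρ ≠ 1 := by
    intro h
    apply hne
    rw [← hρη', h, one_mul]
  have hΨ : ∑ i ∈ Finset.range (q + 1), ρ ^ i = 0 := by
    have h := mul_geom_sum ρ (q + 1)
    rw [hρp, sub_self] at h
    exact (mul_eq_zero.mp h).resolve_left (sub_ne_zero.mpr hρ1)
  have hQ : (ρ - 1) * ∑ a ∈ Finset.range (q + 1), ∑ b ∈ Finset.range a, ρ ^ b =
      -((q + 1 : ℕ) : B) := by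
    rw [Finset.mul_sum]
    have : ∀ a ∈ Finset.range (q + 1), (ρ - 1) * ∑ b ∈ Finset.range a, ρ ^ b = ρ ^ a - 1 :=
      fun a _ => mul_geom_sum ρ a
    rw [Finset.sum_congr rfl this, Finset.sum_sub_distrib, hΨ, Finset.sum_const,
      Finset.card_range, nsmul_eq_mul, mul_one, zero_sub]
  have hρu : IsUnit (ρ - 1) := isUnit_of_dvd_unit ⟨_, hQ.symm⟩ hpu.neg
  have : η - η' = (ρ - 1) * η' := by rw [sub_mul, hρη', one_mul]
  rw [this]
  exact hρu.mul hη'u

end Units

section Main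

variable {B : Type*} [CommRing B] [IsDomain B]
  {F : Type*} [Field F] [Algebra B F]
  {F' : Type*} [Field F'] [Algebra F F'] [Algebra B F'] [IsScalarTower B F F']

/-- `z ∈ O'`. -/
theorem inO_z {ϖ : B} (hϖ : Prime ϖ) {p : ℕ} (hp0 : 0 < p) {u : F} {z : F'}
    (hz : z ^ p = algebraMap F F' u) (hu1 : OneModPi ϖ u) : InO ϖ z := by
  obtain ⟨a, s, hs, -, hus⟩ := hu1
  refine ⟨s, hs, IsIntegral.of_pow hp0 ?_⟩
  obtain ⟨q, rfl⟩ : ∃ q, p = q + 1 := ⟨p - 1, by omega⟩
  have h1 : algebraMap F F' u * algebraMap B F' s = algebraMap B F' a := by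
    rw [IsScalarTower.algebraMap_apply B F F' s, IsScalarTower.algebraMap_apply B F F' a,
      ← map_mul, hus]
  have : (algebraMap B F' s * z) ^ (q + 1) = algebraMap B F' (s ^ q * a) := by
    rw [mul_pow, hz, pow_succ, map_mul, map_pow, ← h1]
    ring
  rw [this]
  exact isIntegral_algebraMap

/-- `u - 1 ∈ ϖ O'`. -/
theorem inPiO_u_sub_one {ϖ : B} {u : F} (hu1 : OneModPi ϖ u) :
    InPiO ϖ (algebraMap F F' u - 1) := by
  obtain ⟨a, s, hs, has, hus⟩ := hu1
  obtain ⟨d, hd⟩ := Ideal.mem_span_singleton.mp has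
  refine ⟨s, hs, algebraMap B F' d, isIntegral_algebraMap, ?_⟩
  have h1 : algebraMap F F' u * algebraMap B F' s = algebraMap B F' a := by
    rw [IsScalarTower.algebraMap_apply B F F' s, IsScalarTower.algebraMap_apply B F F' a,
      ← map_mul, hus]
  calc algebraMap B F' s * (algebraMap F F' u - 1)
      = algebraMap F F' u * algebraMap B F' s - algebraMap B F' s := by ring
    _ = algebraMap B F' (a - s) := by rw [h1, map_sub]
    _ = algebraMap B F' ϖ * algebraMap B F' d := by rw [hd, map_mul]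

theorem natCast_inv_eq {p : ℕ} (hpu : IsUnit (p : B)) :
    ((p : F')⁻¹ : F') = algebraMap B F' ((hpu.unit⁻¹ : Bˣ) : B) := by
  have h1 : algebraMap B F' ((hpu.unit⁻¹ : Bˣ) : B) * (p : F') = 1 := by
    rw [← map_natCast (algebraMap B F') p, ← map_mul]
    have : ((hpu.unit⁻¹ : Bˣ) : B) * (p : B) = 1 := by
      have := hpu.unit.inv_mul
      simpa using this
    rw [this, map_one]
  exact (eq_inv_of_mul_eq_one_left h1).symm

theorem natCast_ne_zero' {p : ℕ} (hpu : IsUnit (p : B)) : (p : F') ≠ 0 := by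
  have h := (hpu.map (algebraMap B F')).ne_zero
  rwa [map_natCast] at h

theorem kummerIdem_eq (p : ℕ) (η : B) (z : F') :
    kummerIdem p η z = (p : F')⁻¹ * ∑ a ∈ Finset.range p, (algebraMap B F' η * z) ^ a := by
  unfold kummerIdem
  congr 1
  refine Finset.sum_congr rfl fun a _ => ?_
  rw [mul_pow, map_pow]

theorem inO_kummerIdem {ϖ : B} (hϖ : Prime ϖ) {p : ℕ} (hp0 : 0 < p) (hpu : IsUnit (p : B))
    {u : F} {z : F'} (hz : z ^ p = algebraMap F F' u) (hu1 : OneModPi ϖ u) (η : B) :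
    InO ϖ (kummerIdem p η z) := by
  rw [kummerIdem_eq, natCast_inv_eq hpu]
  refine (InO.of_algebraMap hϖ _).mul hϖ (InO.sum hϖ _ _ fun a _ => ?_)
  exact ((InO.of_algebraMap hϖ η).mul hϖ (inO_z hϖ hp0 hz hu1)).pow hϖ a

/-- The key congruence `(η z - 1) e_η ∈ ϖ O'`. -/
theorem inPiO_sub_one_mul_kummerIdem {ϖ : B} (hϖ : Prime ϖ) {p : ℕ}
    (hpu : IsUnit (p : B)) {u : F} {z : F'} (hz : z ^ p = algebraMap F F' u)
    (hu1 : OneModPi ϖ u) {η : B} (hη : η ^ p = 1) :
    InPiO ϖ ((algebraMap B F' η * z - 1) * kummerIdem p η z) := by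
  have h : (algebraMap B F' η * z - 1) * kummerIdem p η z =
      (algebraMap F F' u - 1) * (p : F')⁻¹ := by
    rw [kummerIdem_eq, mul_left_comm, mul_geom_sum, mul_pow, ← map_pow, hη, map_one, one_mul, hz,
      mul_comm]
  rw [h, natCast_inv_eq hpu]
  exact inPiO_mul_inO hϖ (inPiO_u_sub_one hu1) (InO.of_algebraMap hϖ _)

/-- `(η z)^a e_η ≡ e_η` modulo `ϖ O'`. -/
theorem inPiO_pow_mul_kummerIdem_sub {ϖ : B} (hϖ : Prime ϖ) {p : ℕ} (hp0 : 0 < p)
    (hpu : IsUnit (p : B)) {u : F} {z : F'} (hz : z ^ p = algebraMap F F' u)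
    (hu1 : OneModPi ϖ u) {η : B} (hη : η ^ p = 1) (a : ℕ) :
    InPiO ϖ ((algebraMap B F' η * z) ^ a * kummerIdem p η z - kummerIdem p η z) := by
  have ht : InO ϖ (algebraMap B F' η * z) :=
    (InO.of_algebraMap hϖ η).mul hϖ (inO_z hϖ hp0 hz hu1)
  induction a with
  | zero =>
    rw [pow_zero, one_mul, sub_self]
    exact ⟨1, one_notMem_span hϖ, 0, isIntegral_zero, by rw [mul_zero, mul_zero]⟩
  | succ a ih =>
    have h1 := inPiO_inO_mul hϖ ht ih
    have h2 := inPiO_sub_one_mul_kummerIdem hϖ hpu hz hu1 hη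
    refine inPiO_congr ?_ (inPiO_add hϖ h1 h2)
    ring

/-- Idempotency modulo `ϖ O'`. -/
theorem inPiO_kummerIdem_sq_sub {ϖ : B} (hϖ : Prime ϖ) {p : ℕ} (hp0 : 0 < p)
    (hpu : IsUnit (p : B)) {u : F} {z : F'} (hz : z ^ p = algebraMap F F' u)
    (hu1 : OneModPi ϖ u) {η : B} (hη : η ^ p = 1) :
    InPiO ϖ (kummerIdem p η z * kummerIdem p η z - kummerIdem p η z) := by
  have hp' : (p : F') ≠ 0 := natCast_ne_zero' (B := B) hpu
  have hsum := inPiO_sum hϖ (Finset.range p)
    (fun a => (algebraMap B F' η * z) ^ a * kummerIdem p η z - kummerIdem p η z)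
    (fun a _ => inPiO_pow_mul_kummerIdem_sub hϖ hp0 hpu hz hu1 hη a)
  have hpinv : InO ϖ ((p : F')⁻¹) := by
    rw [natCast_inv_eq hpu]; exact InO.of_algebraMap hϖ _
  refine inPiO_congr ?_ (inPiO_inO_mul hϖ hpinv hsum)
  rw [Finset.sum_sub_distrib, ← Finset.sum_mul, Finset.sum_const, Finset.card_range,
    nsmul_eq_mul, mul_sub, ← mul_assoc, ← kummerIdem_eq, ← mul_assoc, inv_mul_cancel₀ hp', one_mul]

/-- Orthogonality modulo `ϖ O'`. -/
theorem inPiO_kummerIdem_mul {ϖ : B} (hϖ : Prime ϖ) {p : ℕ} (hp0 : 0 < p)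
    (hpu : IsUnit (p : B)) {u : F} (hu0 : u ≠ 0) {z : F'} (hz : z ^ p = algebraMap F F' u)
    (hu1 : OneModPi ϖ u) {η η' : B} (hη : η ^ p = 1) (hη' : η' ^ p = 1) (hne : η ≠ η') :
    InPiO ϖ (kummerIdem p η z * kummerIdem p η' z) := by
  have hz0 : z ≠ 0 := by
    rintro rfl
    rw [zero_pow hp0.ne'] at hz
    exact hu0 ((map_eq_zero (algebraMap F F')).mp hz.symm)
  -- `z⁻¹ ∈ O'`
  have hzinv : InO ϖ z⁻¹ := by
    obtain ⟨a, s, hs, has, hus⟩ := hu1
    have ha : a ∉ Ideal.span {ϖ} := by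
      intro ha
      apply hs
      have := (Ideal.span {ϖ}).sub_mem ha has
      rwa [sub_sub_cancel] at this
    have h1 : algebraMap F F' u * algebraMap B F' s = algebraMap B F' a := by
      rw [IsScalarTower.algebraMap_apply B F F' s, IsScalarTower.algebraMap_apply B F F' a,
        ← map_mul, hus]
    have huinv : InO ϖ (algebraMap F F' u)⁻¹ := by
      refine ⟨a, ha, ?_⟩
      have hu0' : algebraMap F F' u ≠ 0 := (map_ne_zero (algebraMap F F')).mpr hu0
      have : algebraMap B F' a * (algebraMap F F' u)⁻¹ = algebraMap B F' s := by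
        rw [← h1]; field_simp
      rw [this]
      exact isIntegral_algebraMap
    obtain ⟨q, rfl⟩ : ∃ q, p = q + 1 := ⟨p - 1, by omega⟩
    have hzi : z⁻¹ = z ^ q * (algebraMap F F' u)⁻¹ := by
      rw [← hz, pow_succ]; field_simp
    rw [hzi]
    exact ((inO_z hϖ hp0 hz ⟨a, s, hs, has, hus⟩).pow hϖ q).mul hϖ huinv
  have he : InO ϖ (kummerIdem p η z) := inO_kummerIdem hϖ hp0 hpu hz hu1 η
  have he' : InO ϖ (kummerIdem p η' z) := inO_kummerIdem hϖ hp0 hpu hz hu1 η'
  have h1 := inPiO_mul_inO hϖ (inPiO_sub_one_mul_kummerIdem hϖ hpu hz hu1 hη) he'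
  have h2 := inPiO_mul_inO hϖ (inPiO_sub_one_mul_kummerIdem hϖ hpu hz hu1 hη') he
  have h3 := inPiO_sub hϖ h1 h2
  obtain ⟨v, hv⟩ := isUnit_sub_of_pow_eq_one p hp0 hpu hη hη' hne
  have hvinv : InO ϖ (algebraMap B F' ((v⁻¹ : Bˣ) : B) * z⁻¹) :=
    (InO.of_algebraMap hϖ _).mul hϖ hzinv
  refine inPiO_congr ?_ (inPiO_inO_mul hϖ hvinv h3)
  have hv1 : algebraMap B F' ((v⁻¹ : Bˣ) : B) * algebraMap B F' (η - η') = 1 := by
    rw [← map_mul, ← hv, Units.inv_mul, map_one]
  have : (algebraMap B F' η * z - 1) * kummerIdem p η z * kummerIdem p η' z -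
      (algebraMap B F' η' * z - 1) * kummerIdem p η' z * kummerIdem p η z =
      algebraMap B F' (η - η') * z * (kummerIdem p η z * kummerIdem p η' z) := by
    rw [map_sub]; ring
  rw [this]
  calc algebraMap B F' ((v⁻¹ : Bˣ) : B) * z⁻¹ *
        (algebraMap B F' (η - η') * z * (kummerIdem p η z * kummerIdem p η' z))
      = (algebraMap B F' ((v⁻¹ : Bˣ) : B) * algebraMap B F' (η - η')) * (z⁻¹ * z) *
          (kummerIdem p η z * kummerIdem p η' z) := by ring
    _ = kummerIdem p η z * kummerIdem p η' z := by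
        rw [hv1, inv_mul_cancel₀ hz0, one_mul, one_mul]

/-- The idempotents sum to one. -/
theorem sum_kummerIdem {p : ℕ} (hp : p.Prime) (hpu : IsUnit (p : B)) (z : F') {ζ : B}
    (hζ : IsPrimitiveRoot ζ p) :
    ∑ i ∈ Finset.range p, kummerIdem p (ζ ^ i) z = 1 := by
  have hp' : (p : F') ≠ 0 := natCast_ne_zero' (B := B) hpu
  unfold kummerIdem
  rw [← Finset.mul_sum, Finset.sum_comm]
  have hinner : ∀ a ∈ Finset.range p,
      ∑ i ∈ Finset.range p, algebraMap B F' ((ζ ^ i) ^ a) * z ^ a =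
        if a = 0 then (p : F') else 0 := by
    intro a ha
    rw [← Finset.sum_mul, ← map_sum]
    split_ifs with h0
    · subst h0
      simp
    · have hcop : a.Coprime p := by
        rw [Nat.coprime_comm]
        refine (Nat.Prime.coprime_iff_not_dvd hp).mpr fun hdvd => ?_
        have := Nat.le_of_dvd (Nat.pos_of_ne_zero h0) hdvd
        exact absurd (Finset.mem_range.mp ha) (not_lt.mpr this)
      have hprim : IsPrimitiveRoot (ζ ^ a) p := hζ.pow_of_coprime a hcop
      have : ∑ i ∈ Finset.range p, (ζ ^ i) ^ a = 0 := by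
        have := hprim.geom_sum_eq_zero hp.one_lt
        rw [← this]
        refine Finset.sum_congr rfl fun i _ => ?_
        rw [← pow_mul, ← pow_mul, mul_comm]
      rw [this, map_zero, zero_mul]
  rw [Finset.sum_congr rfl hinner, Finset.sum_ite_eq' (Finset.range p) 0 (fun _ => (p : F')),
    if_pos (Finset.mem_range.mpr hp.pos), inv_mul_cancel₀ hp']

end Main

section Trace

variable {F : Type*} [Field F]

theorem root_pow_self (p : ℕ) (u : F) :
    AdjoinRoot.root (X ^ p - C u : F[X]) ^ p = AdjoinRoot.of (X ^ p - C u : F[X]) u := by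
  have h := AdjoinRoot.eval₂_root (X ^ p - C u : F[X])
  rw [eval₂_sub, eval₂_X_pow, eval₂_C, sub_eq_zero] at h
  exact h

/-- In `F[X]/(X^p - u)`, the powers `root ^ a`, `0 < a < p`, have trace zero. -/
theorem trace_root_pow (p : ℕ) (u : F) (a : ℕ) (ha0 : 0 < a) (hap : a < p) :
    Algebra.trace F (AdjoinRoot (X ^ p - C u : F[X])) (AdjoinRoot.root (X ^ p - C u) ^ a) = 0 := by
  classical
  have hp : p ≠ 0 := by omega
  have hmonic : (X ^ p - C u : F[X]).Monic := monic_X_pow_sub_C u hp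
  have hdeg : (X ^ p - C u : F[X]).natDegree = p := natDegree_X_pow_sub_C
  set pb := AdjoinRoot.powerBasis' hmonic with hpb
  have hdim : pb.dim = p := hdeg
  have hgen : pb.gen = AdjoinRoot.root (X ^ p - C u) := rfl
  rw [Algebra.trace_eq_matrix_trace pb.basis, Matrix.trace]
  refine Finset.sum_eq_zero fun i _ => ?_
  rw [Matrix.diag_apply, Algebra.leftMulMatrix_eq_repr_mul, pb.basis_eq_pow, hgen, ← pow_add]
  have hi : (i : ℕ) < p := lt_of_lt_of_eq i.2 hdim
  rcases lt_or_ge (a + (i : ℕ)) p with h | h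
  · have hlt : a + (i : ℕ) < pb.dim := lt_of_lt_of_eq h hdim.symm
    have : AdjoinRoot.root (X ^ p - C u : F[X]) ^ (a + (i : ℕ)) = pb.basis ⟨a + i, hlt⟩ := by
      rw [pb.basis_eq_pow, hgen]
    rw [this, Module.Basis.repr_self, Finsupp.single_apply, if_neg]
    intro hEq
    have := congrArg Fin.val hEq
    simp only at this
    omega
  · obtain ⟨d, hd⟩ := Nat.exists_eq_add_of_le h
    have hdlt : d < pb.dim := lt_of_lt_of_eq (by omega : d < p) hdim.symm
    have : AdjoinRoot.root (X ^ p - C u : F[X]) ^ (a + (i : ℕ)) = u • pb.basis ⟨d, hdlt⟩ := by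
      rw [pb.basis_eq_pow, hgen, hd, pow_add, root_pow_self, Algebra.smul_def,
        AdjoinRoot.algebraMap_eq]
    rw [this, map_smul, Finsupp.smul_apply, Module.Basis.repr_self, Finsupp.single_apply, if_neg,
      smul_zero]
    intro hEq
    have := congrArg Fin.val hEq
    simp only at this
    omega

theorem trace_one_adjoinRoot (p : ℕ) (hp : p ≠ 0) (u : F) :
    Algebra.trace F (AdjoinRoot (X ^ p - C u : F[X])) 1 = (p : F) := by
  have hmonic : (X ^ p - C u : F[X]).Monic := monic_X_pow_sub_C u hp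
  have hdeg : (X ^ p - C u : F[X]).natDegree = p := natDegree_X_pow_sub_C
  haveI : Module.Free F (AdjoinRoot (X ^ p - C u : F[X])) := hmonic.free_adjoinRoot
  have h := Algebra.trace_algebraMap (R := F) (S := AdjoinRoot (X ^ p - C u : F[X])) (1 : F)
  rw [map_one] at h
  rw [h, (AdjoinRoot.powerBasis' hmonic).finrank]
  show (X ^ p - C u : F[X]).natDegree • (1 : F) = p
  rw [hdeg, nsmul_eq_mul, mul_one]

end Trace

section Nonvanishing

variable {B : Type*} [CommRing B] [IsDomain B] [IsIntegrallyClosed B]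
  {F : Type*} [Field F] [Algebra B F] [IsFractionRing B F]
  {F' : Type*} [Field F'] [Algebra F F'] [Algebra B F'] [IsScalarTower B F F']

/-- None of the Kummer idempotents vanishes modulo `ϖ O'` (trace argument). -/
theorem not_inPiO_kummerIdem {ϖ : B} (hϖ : Prime ϖ) {p : ℕ} (hp : p.Prime)
    (hpu : IsUnit (p : B)) {u : F} {z : F'} (hz : z ^ p = algebraMap F F' u)
    (hu : ∀ y : F, y ^ p ≠ u) (η : B) : ¬ InPiO ϖ (kummerIdem p η z) := by
  rintro ⟨s₁, hs₁, c, hc, h⟩
  have hp0 : p ≠ 0 := hp.ne_zero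
  have hpF : (p : F) ≠ 0 := by
    have h := (hpu.map (algebraMap B F)).ne_zero
    rwa [map_natCast] at h
  have hpF' : (p : F') ≠ 0 := natCast_ne_zero' (B := B) hpu
  have hϖF : algebraMap B F ϖ ≠ 0 := by
    rw [Ne, map_eq_zero_iff _ (IsFractionRing.injective B F)]
    exact hϖ.ne_zero
  have hϖF' : algebraMap B F' ϖ ≠ 0 := by
    rw [IsScalarTower.algebraMap_apply B F F']
    exact (map_ne_zero (algebraMap F F')).mpr hϖF
  haveI hirr : Fact (Irreducible (X ^ p - C u : F[X])) := ⟨X_pow_sub_C_irreducible_of_prime hp hu⟩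
  have hmonic : (X ^ p - C u : F[X]).Monic := monic_X_pow_sub_C u hp0
  haveI : Module.Finite F (AdjoinRoot (X ^ p - C u : F[X])) := hmonic.finite_adjoinRoot
  -- the embedding of the model into `F'`
  let i₀ : F →ₐ[B] F' := IsScalarTower.toAlgHom B F F'
  have hroot : (X ^ p - C u : F[X]).eval₂ (i₀ : F →+* F') z = 0 := by
    rw [eval₂_sub, eval₂_X_pow, eval₂_C, sub_eq_zero, hz]
    rfl
  let φ : AdjoinRoot (X ^ p - C u : F[X]) →ₐ[B] F' :=
    AdjoinRoot.liftAlgHom (X ^ p - C u : F[X]) i₀ z hroot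
  have hφinj : Function.Injective φ := (φ : AdjoinRoot (X ^ p - C u : F[X]) →+* F').injective
  have hφroot : φ (AdjoinRoot.root _) = z := AdjoinRoot.liftAlgHom_root _ _ _ _
  have hφof : ∀ x : F, φ (algebraMap F (AdjoinRoot (X ^ p - C u : F[X])) x) = algebraMap F F' x := by
    intro x
    rw [AdjoinRoot.algebraMap_eq]
    exact AdjoinRoot.liftAlgHom_of _ _ _ _ x
  -- the preimage of `c`
  set k : F := algebraMap B F s₁ * (algebraMap B F ϖ)⁻¹ * (p : F)⁻¹ with hk
  set c₀ : AdjoinRoot (X ^ p - C u : F[X]) :=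
    ∑ a ∈ Finset.range p, (k * algebraMap B F (η ^ a)) • AdjoinRoot.root (X ^ p - C u : F[X]) ^ a
    with hc₀
  have hφc₀ : φ c₀ = c := by
    have hc' : c = (algebraMap B F' ϖ)⁻¹ * (algebraMap B F' s₁ * kummerIdem p η z) := by
      rw [h, ← mul_assoc, inv_mul_cancel₀ hϖF', one_mul]
    rw [hc', hc₀, map_sum]
    unfold kummerIdem
    rw [Finset.mul_sum, Finset.mul_sum, Finset.mul_sum]
    refine Finset.sum_congr rfl fun a _ => ?_
    rw [Algebra.smul_def, map_mul, hφof, map_pow φ, hφroot, hk, map_mul, map_mul, map_mul,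
      map_inv₀, map_inv₀, map_natCast, ← IsScalarTower.algebraMap_apply B F F',
      ← IsScalarTower.algebraMap_apply B F F', ← IsScalarTower.algebraMap_apply B F F']
    ring
  have hc₀int : IsIntegral B c₀ := by
    rw [← isIntegral_algHom_iff φ hφinj, hφc₀]
    exact hc
  have htr : Algebra.trace F (AdjoinRoot (X ^ p - C u : F[X])) c₀ =
      algebraMap B F s₁ * (algebraMap B F ϖ)⁻¹ := by
    rw [hc₀, map_sum]
    have : ∀ a ∈ Finset.range p,
        Algebra.trace F (AdjoinRoot (X ^ p - C u : F[X]))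
          ((k * algebraMap B F (η ^ a)) • AdjoinRoot.root (X ^ p - C u : F[X]) ^ a) =
        if a = 0 then k * (p : F) else 0 := by
      intro a ha
      rw [map_smul]
      split_ifs with h0
      · subst h0
        rw [pow_zero, pow_zero, map_one, mul_one, trace_one_adjoinRoot p hp0 u, smul_eq_mul]
      · rw [trace_root_pow p u a (Nat.pos_of_ne_zero h0) (Finset.mem_range.mp ha), smul_zero]
    rw [Finset.sum_congr rfl this, Finset.sum_ite_eq' (Finset.range p) 0 (fun _ => k * (p : F)),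
      if_pos (Finset.mem_range.mpr hp.pos), hk, inv_mul_cancel_right₀ hpF]
  have hint : IsIntegral B (Algebra.trace F (AdjoinRoot (X ^ p - C u : F[X])) c₀) :=
    Algebra.isIntegral_trace hc₀int
  rw [htr] at hint
  obtain ⟨b, hb⟩ := IsIntegrallyClosed.isIntegral_iff.mp hint
  apply hs₁
  rw [Ideal.mem_span_singleton]
  refine ⟨b, ?_⟩
  apply IsFractionRing.injective B F
  rw [map_mul, hb, mul_comm (algebraMap B F s₁), mul_inv_cancel_left₀ hϖF]

/-- **P6**: the frozen statement `KummerIdemStatement` of `H754/KummerSpec.lean`. -/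
theorem kummerIdemStatement : KummerIdemStatement := by
  intro B _ _ _ F _ _ _ F' _ _ _ _ ϖ hϖ p hp hpu u z hz hu hu1
  have hu0 : u ≠ 0 := by
    rintro rfl
    exact hu 0 (zero_pow hp.ne_zero)
  refine ⟨fun η hη => inPiO_kummerIdem_sq_sub hϖ hp.pos hpu hz hu1 hη,
    fun η η' hη hη' hne => inPiO_kummerIdem_mul hϖ hp.pos hpu hu0 hz hu1 hη hη' hne,
    fun ζ hζ => sum_kummerIdem hp hpu z hζ,
    fun η _ => not_inPiO_kummerIdem hϖ hp hpu hz hu η⟩

end Nonvanishing

end Fermat.Agent.S18.H334
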