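import Mathlib

/-!
# S18 — pieces b3/b4 (local form): local factoriality and Kummer normal form

Setting: `R` a noetherian local domain and `w ∈ R` such that `R ⧸ (w)` is a domain and a
principal ideal ring (e.g. a discrete valuation ring: this is the output of b2, "the special
fibre is normal", at a closed point of the special fibre).  Then

* `isPrincipal_of_prime_of_notMem` : every prime ideal of `R` not containing `w` is principal
  (Nakayama);
* `ufm_of_quotient_pir` : `R` is a unique factorisation domain (Kaplansky's criterion);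
* `exists_unit_mul_pow_of_dvd_multiplicity` (any UFD): an element all of whose prime
  multiplicities are divisible by `m` is a unit times an `m`-th power;
* `exists_kummer_normal_form` (any UFD): if `m ∣ ord_p(a) - ord_p(b)` for all primes `p`, then
  `a * t ^ m = ε * b * s ^ m` with `ε` a unit and `s`, `t` coprime.  This is the local statement
  "`u = ε · (s/t)^m`" which makes the Kummer cover `F(u^{1/m})` étale over `Spec R`.
-/

set_option autoImplicit false

namespace Fermat.Agent.S18.H334

open Ideal

section LocalUFD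

variable {R : Type*} [CommRing R] [IsNoetherianRing R] [IsLocalRing R]

/-- Every prime ideal not containing `w` is principal, if `R ⧸ (w)` is a principal ideal ring
and `w` is not a unit. -/
theorem isPrincipal_of_prime_of_notMem (w : R) (hwu : ¬ IsUnit w)
    [IsPrincipalIdealRing (R ⧸ Ideal.span {w})]
    (P : Ideal R) [hP : P.IsPrime] (hwP : w ∉ P) : Submodule.IsPrincipal P := by
  set f := Ideal.Quotient.mk (Ideal.span {w}) with hf
  have hfsurj : Function.Surjective f := Ideal.Quotient.mk_surjective
  -- a generator of the image of `P`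
  obtain ⟨g, hg⟩ := (IsPrincipalIdealRing.principal (P.map f)).principal
  have hgmem : g ∈ P.map f := by rw [hg]; exact Submodule.mem_span_singleton_self g
  obtain ⟨p, hpP, hpg⟩ := (Ideal.mem_map_iff_of_surjective f hfsurj).mp hgmem
  refine ⟨⟨p, ?_⟩⟩
  apply le_antisymm
  · -- Nakayama
    have hjac : Ideal.span {w} ≤ Ideal.jacobson (⊥ : Ideal R) := by
      rw [IsLocalRing.jacobson_eq_maximalIdeal ⊥ bot_ne_top, Ideal.span_le,
        Set.singleton_subset_iff]
      exact (IsLocalRing.mem_maximalIdeal w).mpr hwu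
    refine Submodule.le_of_le_smul_of_le_jacobson_bot (IsNoetherian.noetherian P) hjac ?_
    intro a haP
    have ha : f a ∈ P.map f := Ideal.mem_map_of_mem f haP
    rw [hg] at ha
    obtain ⟨c, hc⟩ := Submodule.mem_span_singleton.mp ha
    obtain ⟨c', rfl⟩ := hfsurj c
    have h1 : f (a - c' * p) = 0 := by
      rw [map_sub, map_mul, hpg, ← hc, smul_eq_mul, sub_self]
    rw [hf, Ideal.Quotient.eq_zero_iff_mem, Ideal.mem_span_singleton] at h1
    obtain ⟨b, hb⟩ := h1
    have hbP : b ∈ P := by
      have : w * b ∈ P := by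
        rw [← hb]
        exact P.sub_mem haP (P.mul_mem_left _ hpP)
      exact (hP.mem_or_mem this).resolve_left hwP
    have hab : a = c' * p + w * b := by rw [← hb]; ring
    rw [hab]
    refine Submodule.add_mem _ (Submodule.mem_sup_left ?_) (Submodule.mem_sup_right ?_)
    · exact Submodule.smul_mem _ c' (Submodule.mem_span_singleton_self p)
    · rw [← smul_eq_mul]
      exact Submodule.smul_mem_smul (Ideal.mem_span_singleton_self w) hbP
  · rw [Submodule.span_le, Set.singleton_subset_iff]
    exact hpP

/-- A noetherian local domain `R` with `R ⧸ (w)` a principal ideal domain is factorial. -/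
theorem ufm_of_quotient_pir [IsDomain R] (w : R) (hw0 : w ≠ 0)
    [IsDomain (R ⧸ Ideal.span {w})] [IsPrincipalIdealRing (R ⧸ Ideal.span {w})] :
    UniqueFactorizationMonoid R := by
  have hwprime : (Ideal.span {w}).IsPrime := (Ideal.Quotient.isDomain_iff_prime _).mp inferInstance
  have hwu : ¬ IsUnit w := fun h => hwprime.ne_top (Ideal.span_singleton_eq_top.mpr h)
  have hwp : Prime w := (Ideal.span_singleton_prime hw0).mp hwprime
  refine UniqueFactorizationMonoid.iff_exists_prime_mem_of_isPrime.mpr fun I hI hIp => ?_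
  by_cases hwI : w ∈ I
  · exact ⟨w, hwI, hwp⟩
  · haveI := hIp
    obtain ⟨⟨p, hp⟩⟩ := isPrincipal_of_prime_of_notMem w hwu I hwI
    have hp' : I = Ideal.span {p} := hp
    have hp0 : p ≠ 0 := by
      rintro rfl
      apply hI
      rw [hp', Ideal.span_singleton_eq_bot]
    refine ⟨p, by rw [hp']; exact Ideal.mem_span_singleton_self p, ?_⟩
    rw [← Ideal.span_singleton_prime hp0, ← hp']
    exact hIp

end LocalUFD

section Kummer

variable {R : Type*} [CommRing R] [IsDomain R] [UniqueFactorizationMonoid R]

/-- In a UFD, a nonzero element all of whose prime multiplicities are divisible by `m` is a unit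
times an `m`-th power. -/
theorem exists_unit_mul_pow_of_dvd_multiplicity (m : ℕ) (x : R) (hx : x ≠ 0)
    (h : ∀ p : R, Prime p → m ∣ multiplicity p x) :
    ∃ (ε : Rˣ) (s : R), x = ε * s ^ m := by
  revert hx h
  induction x using UniqueFactorizationMonoid.induction_on_coprime with
  | h0 => intro hx; exact absurd rfl hx
  | h1 hu =>
    intro _ _
    exact ⟨hu.unit, 1, by simp⟩
  | hpr i hp =>
    rename_i p
    intro _ h
    obtain ⟨j, hj⟩ := h p hp
    rw [multiplicity_pow_self_of_prime hp] at hj
    exact ⟨1, p ^ j, by rw [Units.val_one, one_mul, ← pow_mul, mul_comm, ← hj]⟩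
  | hcp hxy ihx ihy =>
    rename_i x y
    intro hxy0 h
    have hx0 : x ≠ 0 := left_ne_zero_of_mul hxy0
    have hy0 : y ≠ 0 := right_ne_zero_of_mul hxy0
    have key : ∀ p : R, Prime p → multiplicity p (x * y) = multiplicity p x + multiplicity p y :=
      fun p hp => multiplicity_mul hp (FiniteMultiplicity.of_prime_left hp hxy0)
    have hzero : ∀ p : R, Prime p → multiplicity p x = 0 ∨ multiplicity p y = 0 := by
      intro p hp
      by_cases hpx : p ∣ x
      · right
        rw [multiplicity_eq_zero]
        intro hpy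
        exact hp.not_isUnit (hxy hpx hpy)
      · left
        rwa [multiplicity_eq_zero]
    have hx' : ∀ p : R, Prime p → m ∣ multiplicity p x := by
      intro p hp
      have h1 := h p hp
      rw [key p hp] at h1
      rcases hzero p hp with h0 | h0
      · rw [h0]; exact dvd_zero m
      · rwa [h0, add_zero] at h1
    have hy' : ∀ p : R, Prime p → m ∣ multiplicity p y := by
      intro p hp
      have h1 := h p hp
      rw [key p hp] at h1
      rcases hzero p hp with h0 | h0
      · rwa [h0, zero_add] at h1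
      · rw [h0]; exact dvd_zero m
    obtain ⟨ε₁, s₁, h₁⟩ := ihx hx0 hx'
    obtain ⟨ε₂, s₂, h₂⟩ := ihy hy0 hy'
    refine ⟨ε₁ * ε₂, s₁ * s₂, ?_⟩
    rw [h₁, h₂, Units.val_mul, mul_pow]
    ring

/-- **Kummer normal form in a UFD.**  If `m` divides `ord_p(a) - ord_p(b)` for every prime `p`,
then `a / b = ε · (s / t) ^ m` with `ε` a unit and `s`, `t` coprime. -/
theorem exists_kummer_normal_form (m : ℕ) (hm : m ≠ 0) (a b : R) (ha : a ≠ 0) (hb : b ≠ 0)
    (h : ∀ p : R, Prime p → (m : ℤ) ∣ (multiplicity p a : ℤ) - (multiplicity p b : ℤ)) :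
    ∃ (ε : Rˣ) (s t : R), s ≠ 0 ∧ t ≠ 0 ∧ IsRelPrime s t ∧ a * t ^ m = ε * b * s ^ m := by
  obtain ⟨a', b', c', hcop, hca, hcb⟩ := UniqueFactorizationMonoid.exists_reduced_factors a ha b
  have hc0 : c' ≠ 0 := by rintro rfl; exact ha (by rw [← hca, zero_mul])
  have ha0 : a' ≠ 0 := by rintro rfl; exact ha (by rw [← hca, mul_zero])
  have hb0 : b' ≠ 0 := by rintro rfl; exact hb (by rw [← hcb, mul_zero])
  have keya : ∀ p : R, Prime p → multiplicity p a = multiplicity p c' + multiplicity p a' := by
    intro p hp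
    rw [← hca]
    exact multiplicity_mul hp (FiniteMultiplicity.of_prime_left hp (mul_ne_zero hc0 ha0))
  have keyb : ∀ p : R, Prime p → multiplicity p b = multiplicity p c' + multiplicity p b' := by
    intro p hp
    rw [← hcb]
    exact multiplicity_mul hp (FiniteMultiplicity.of_prime_left hp (mul_ne_zero hc0 hb0))
  have hdiff : ∀ p : R, Prime p →
      (m : ℤ) ∣ (multiplicity p a' : ℤ) - (multiplicity p b' : ℤ) := by
    intro p hp
    have h1 := h p hp
    rw [keya p hp, keyb p hp] at h1
    push_cast at h1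
    have : ((multiplicity p c' : ℤ) + multiplicity p a') - (multiplicity p c' + multiplicity p b')
        = (multiplicity p a' : ℤ) - multiplicity p b' := by ring
    rwa [this] at h1
  have hzero : ∀ p : R, Prime p → multiplicity p a' = 0 ∨ multiplicity p b' = 0 := by
    intro p hp
    by_cases hpa : p ∣ a'
    · right
      rw [multiplicity_eq_zero]
      intro hpb
      exact hp.not_isUnit (hcop hpa hpb)
    · left
      rwa [multiplicity_eq_zero]
  have ha' : ∀ p : R, Prime p → m ∣ multiplicity p a' := by
    intro p hp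
    have h1 := hdiff p hp
    rcases hzero p hp with h0 | h0
    · rw [h0]; exact dvd_zero m
    · rw [h0, Nat.cast_zero, sub_zero] at h1
      exact Int.natCast_dvd_natCast.mp h1
  have hb' : ∀ p : R, Prime p → m ∣ multiplicity p b' := by
    intro p hp
    have h1 := hdiff p hp
    rcases hzero p hp with h0 | h0
    · rw [h0, Nat.cast_zero, zero_sub, dvd_neg] at h1
      exact Int.natCast_dvd_natCast.mp h1
    · rw [h0]; exact dvd_zero m
  obtain ⟨ε₁, s, hs⟩ := exists_unit_mul_pow_of_dvd_multiplicity m a' ha0 ha'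
  obtain ⟨ε₂, t, ht⟩ := exists_unit_mul_pow_of_dvd_multiplicity m b' hb0 hb'
  have hs0 : s ≠ 0 := by
    rintro rfl
    apply ha0
    rw [hs, zero_pow hm, mul_zero]
  have ht0 : t ≠ 0 := by
    rintro rfl
    apply hb0
    rw [ht, zero_pow hm, mul_zero]
  have hsa : s ∣ a' := by
    rw [hs]
    exact Dvd.dvd.mul_left (dvd_pow_self s hm) _
  have htb : t ∣ b' := by
    rw [ht]
    exact Dvd.dvd.mul_left (dvd_pow_self t hm) _
  refine ⟨ε₁ * ε₂⁻¹, s, t, hs0, ht0, fun d hds hdt => hcop (hds.trans hsa) (hdt.trans htb), ?_⟩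
  have h2 : (ε₂ : R) * ((ε₂⁻¹ : Rˣ) : R) = 1 := by rw [← Units.val_mul, mul_inv_cancel, Units.val_one]
  calc a * t ^ m = c' * a' * t ^ m := by rw [hca]
    _ = c' * (ε₁ * s ^ m) * t ^ m := by rw [← hs]
    _ = c' * (ε₁ * s ^ m) * t ^ m * (ε₂ * ((ε₂⁻¹ : Rˣ) : R)) := by rw [h2, mul_one]
    _ = ((ε₁ : R) * ((ε₂⁻¹ : Rˣ) : R)) * (c' * (ε₂ * t ^ m)) * s ^ m := by ring
    _ = ((ε₁ * ε₂⁻¹ : Rˣ) : R) * b * s ^ m := by rw [← ht, hcb, Units.val_mul]

end Kummer

end Fermat.Agent.S18.H334
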