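import Mathlib
import Fermat.Agent.S18.H754.KummerSpec
import Fermat.Agent.S18.H334.LocalUFD
import Fermat.Agent.S18.H334.KummerIdem

/-!
# S18, Route K, piece P4 (local part): the local Kummer congruence

`R` noetherian local domain, `ϖ ∈ R` prime with `R ⧸ (ϖ)` a principal ideal ring (so `R` is a
2-dimensional regular local ring, a UFD by `ufm_of_quotient_pir`), `F = Frac R`, `z ^ p = u ∈ F`,
`u ≡ 1 mod ϖ` (`OneModPi`), `p ∣ ord_𝔭(u)` at all height-one primes (`DivisibleDivisor`).

* `exists_isIntegral_inPiO_sub` : there is `z₁` integral over `R` with `z - z₁ ∈ ϖ O'`.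

No discriminants, no integral closedness of the Kummer order: `u = ε (s'/t')^p` in the UFD `R`,
`θ := z t'/s'` has `θ ^ p = ε ∈ Rˣ`, `t' ≡ λ s' mod ϖ` with `λ ∈ Rˣ`, and `z₁ := θ λ⁻¹`.
-/

set_option autoImplicit false
set_option linter.unusedSectionVars false
set_option linter.unusedVariables false
set_option linter.style.haveILetI false

noncomputable section

namespace Fermat.Agent.S18.H334

open Polynomial Fermat.Agent.S18.H754

section Height

variable {R : Type*} [CommRing R] [IsDomain R] [IsNoetherianRing R]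

/-- In a noetherian domain, a prime element generates a prime ideal of height one. -/
theorem height_span_singleton_of_prime {q : R} (hq : Prime q) :
    (Ideal.span {q} : Ideal R).height = 1 := by
  have hprime : (Ideal.span {q} : Ideal R).IsPrime := (Ideal.span_singleton_prime hq.ne_zero).mpr hq
  have hmin : Ideal.span {q} ∈ (Ideal.span {q} : Ideal R).minimalPrimes :=
    ⟨⟨hprime, le_rfl⟩, fun _ h _ => h.2⟩
  refine le_antisymm
    (Ideal.height_le_one_of_isPrincipal_of_mem_minimalPrimes (Ideal.span {q}) _ hmin) ?_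
  rw [Order.one_le_iff_pos, pos_iff_ne_zero, Ne, Ideal.height_eq_zero_iff_eq_bot,
    Ideal.span_singleton_eq_bot]
  exact hq.ne_zero

end Height

section Multiplicity

variable {R : Type*} [CommRing R] [IsDomain R] [IsNoetherianRing R]
  {F : Type*} [Field F] [Algebra R F] [IsFractionRing R F]

/-- `DivisibleDivisor` implies the multiplicity condition of `exists_kummer_normal_form`. -/
theorem dvd_multiplicity_sub_of_divisibleDivisor {p : ℕ} (hp : p ≠ 0) {u : F}
    (hdiv : DivisibleDivisor R p u) {a s : R} (ha : a ≠ 0) (hs : s ≠ 0)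
    (hus : u * algebraMap R F s = algebraMap R F a) (q : R) (hq : Prime q) :
    (p : ℤ) ∣ (multiplicity q a : ℤ) - (multiplicity q s : ℤ) := by
  have hinj := IsFractionRing.injective R F
  have hprime : (Ideal.span {q} : Ideal R).IsPrime := (Ideal.span_singleton_prime hq.ne_zero).mpr hq
  obtain ⟨t, a₁, s₁, ha₁, hs₁, h⟩ := hdiv (Ideal.span {q}) hprime (height_span_singleton_of_prime hq)
  rw [Ideal.mem_span_singleton] at ha₁ hs₁
  have ha₁0 : a₁ ≠ 0 := by rintro rfl; exact ha₁ (dvd_zero q)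
  have hs₁0 : s₁ ≠ 0 := by rintro rfl; exact hs₁ (dvd_zero q)
  -- write `t = t₁ / t₂`
  obtain ⟨t₁, t₂, ht₂, ht⟩ := IsFractionRing.div_surjective (A := R) t
  have ht₂0 : t₂ ≠ 0 := nonZeroDivisors.ne_zero ht₂
  have ht₂F : algebraMap R F t₂ ≠ 0 := by
    rw [Ne, map_eq_zero_iff _ hinj]; exact ht₂0
  have hsF : algebraMap R F s ≠ 0 := by
    rw [Ne, map_eq_zero_iff _ hinj]; exact hs
  have ht₁0 : t₁ ≠ 0 := by
    rintro rfl
    rw [map_zero, zero_div] at ht
    rw [← ht, zero_pow hp, mul_zero, zero_mul] at h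
    exact ha₁0 ((map_eq_zero_iff _ hinj).mp h.symm)
  -- the equation in `R`
  have hEq : a * t₁ ^ p * s₁ = a₁ * s * t₂ ^ p := by
    apply hinj
    simp only [map_mul, map_pow]
    rw [← h, ← hus, ← ht, div_pow]
    field_simp
  have hfin : ∀ x : R, x ≠ 0 → FiniteMultiplicity q x := fun x hx =>
    FiniteMultiplicity.of_prime_left hq hx
  have h1 : multiplicity q (a * t₁ ^ p * s₁) =
      multiplicity q a + p * multiplicity q t₁ := by
    rw [multiplicity_mul hq (hfin _ (mul_ne_zero (mul_ne_zero ha (pow_ne_zero p ht₁0)) hs₁0)),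
      multiplicity_mul hq (hfin _ (mul_ne_zero ha (pow_ne_zero p ht₁0))),
      (hfin _ ht₁0).multiplicity_pow hq, multiplicity_eq_zero.mpr hs₁, add_zero]
  have h2 : multiplicity q (a₁ * s * t₂ ^ p) =
      multiplicity q s + p * multiplicity q t₂ := by
    rw [multiplicity_mul hq (hfin _ (mul_ne_zero (mul_ne_zero ha₁0 hs) (pow_ne_zero p ht₂0))),
      multiplicity_mul hq (hfin _ (mul_ne_zero ha₁0 hs)),
      (hfin _ ht₂0).multiplicity_pow hq, multiplicity_eq_zero.mpr ha₁, zero_add]
  rw [hEq, h2] at h1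
  refine ⟨(multiplicity q t₂ : ℤ) - (multiplicity q t₁ : ℤ), ?_⟩
  have h3 : ((multiplicity q s + p * multiplicity q t₂ : ℕ) : ℤ) =
      ((multiplicity q a + p * multiplicity q t₁ : ℕ) : ℤ) := by rw [h1]
  push_cast at h3
  linarith

end Multiplicity

section Local

variable {R : Type*} [CommRing R] [IsDomain R] [IsNoetherianRing R] [IsLocalRing R]
  {F : Type*} [Field F] [Algebra R F] [IsFractionRing R F]
  {F' : Type*} [Field F'] [Algebra F F'] [Algebra R F'] [IsScalarTower R F F']

/-- **Local Kummer congruence.** -/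
theorem exists_isIntegral_inPiO_sub (ϖ : R) (hϖ : Prime ϖ)
    [IsPrincipalIdealRing (R ⧸ Ideal.span {ϖ})]
    {p : ℕ} (hp : p ≠ 0) {u : F} {z : F'} (hz : z ^ p = algebraMap F F' u)
    (hu1 : OneModPi ϖ u) (hdiv : DivisibleDivisor R p u) :
    ∃ z₁ : F', IsIntegral R z₁ ∧ InPiO ϖ (z - z₁) := by
  classical
  have hinj := IsFractionRing.injective R F
  have hinj' : Function.Injective (algebraMap R F') := by
    rw [IsScalarTower.algebraMap_eq R F F']
    exact (algebraMap F F').injective.comp hinj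
  haveI hprimeI : (Ideal.span {ϖ} : Ideal R).IsPrime :=
    (Ideal.span_singleton_prime hϖ.ne_zero).mpr hϖ
  haveI : IsDomain (R ⧸ Ideal.span {ϖ}) := (Ideal.Quotient.isDomain_iff_prime _).mpr hprimeI
  haveI : UniqueFactorizationMonoid R := ufm_of_quotient_pir ϖ hϖ.ne_zero
  obtain ⟨a, s, hs, has, hus⟩ := hu1
  rw [Ideal.mem_span_singleton] at hs has
  obtain ⟨d, hd⟩ := has
  have ha : ¬ ϖ ∣ a := by
    intro h
    apply hs
    have : s = a - ϖ * d := by rw [← hd]; ring
    rw [this]
    exact dvd_sub h (dvd_mul_right ϖ d)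
  have ha0 : a ≠ 0 := by rintro rfl; exact ha (dvd_zero ϖ)
  have hs0 : s ≠ 0 := by rintro rfl; exact hs (dvd_zero ϖ)
  obtain ⟨ε, s', t', hs'0, ht'0, hcop, hnf⟩ := exists_kummer_normal_form p hp a s ha0 hs0
    (dvd_multiplicity_sub_of_divisibleDivisor hp hdiv ha0 hs0 hus)
  -- `ϖ` divides neither `s'` nor `t'`
  have hεϖ : ¬ ϖ ∣ (ε : R) := fun h => hϖ.not_isUnit (isUnit_of_dvd_unit h ε.isUnit)
  have hs' : ¬ ϖ ∣ s' := by
    intro h
    have h1 : ϖ ∣ a * t' ^ p := by
      rw [hnf]
      exact Dvd.dvd.mul_left (dvd_pow h hp) _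
    have h2 : ϖ ∣ t' := hϖ.dvd_of_dvd_pow ((hϖ.dvd_or_dvd h1).resolve_left ha)
    exact hϖ.not_isUnit (hcop h h2)
  have ht' : ¬ ϖ ∣ t' := by
    intro h
    have h1 : ϖ ∣ (ε : R) * s * s' ^ p := by
      rw [← hnf]
      exact Dvd.dvd.mul_left (dvd_pow h hp) _
    rcases hϖ.dvd_or_dvd h1 with h2 | h2
    · rcases hϖ.dvd_or_dvd h2 with h3 | h3
      · exact hεϖ h3
      · exact hs h3
    · exact hs' (hϖ.dvd_of_dvd_pow h2)
  -- reduction modulo `ϖ`
  set f := Ideal.Quotient.mk (Ideal.span {ϖ} : Ideal R) with hf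
  have hfsurj : Function.Surjective f := Ideal.Quotient.mk_surjective
  have hf0 : ∀ x : R, f x = 0 ↔ ϖ ∣ x := fun x => by
    rw [hf, Ideal.Quotient.eq_zero_iff_mem, Ideal.mem_span_singleton]
  have hfa : f a = f s := by
    rw [← sub_eq_zero, ← map_sub, hf0]
    exact ⟨d, hd⟩
  have hfs : f s ≠ 0 := fun h => hs ((hf0 s).mp h)
  have hfs' : f s' ≠ 0 := fun h => hs' ((hf0 s').mp h)
  have hft' : f t' ≠ 0 := fun h => ht' ((hf0 t').mp h)
  have hmod : f t' ^ p = f ε * f s' ^ p := by
    have h1 := congrArg f hnf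
    simp only [map_mul, map_pow] at h1
    rw [hfa] at h1
    have h2 : f s * f t' ^ p = f s * (f ε * f s' ^ p) := by rw [h1]; ring
    exact mul_left_cancel₀ hfs h2
  -- `f s' ∣ f t'`
  have hdvd : f s' ∣ f t' := by
    rw [← UniqueFactorizationMonoid.pow_dvd_pow_iff_dvd hp, hmod]
    exact dvd_mul_left _ _
  obtain ⟨lbar, hlbar⟩ := hdvd
  obtain ⟨l, rfl⟩ := hfsurj lbar
  -- `l ^ p ≡ ε`, hence `l` is a unit
  have hlp : f l ^ p = f ε := by
    have h1 : f s' ^ p * f l ^ p = f s' ^ p * f ε := by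
      rw [← mul_pow, ← hlbar, hmod, mul_comm]
    exact mul_left_cancel₀ (pow_ne_zero p hfs') h1
  have hlunit : IsUnit l := by
    by_contra hl
    have hlm : l ∈ IsLocalRing.maximalIdeal R := (IsLocalRing.mem_maximalIdeal l).mpr hl
    have hϖm : ϖ ∈ IsLocalRing.maximalIdeal R := (IsLocalRing.mem_maximalIdeal ϖ).mpr hϖ.not_isUnit
    have h1 : ϖ ∣ l ^ p - (ε : R) := by
      rw [← hf0, map_sub, map_pow, hlp, sub_self]
    obtain ⟨c, hc⟩ := h1
    have hεm : (ε : R) ∈ IsLocalRing.maximalIdeal R := by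
      have : (ε : R) = l ^ p - ϖ * c := by rw [← hc]; ring
      rw [this]
      exact Ideal.sub_mem _ (Ideal.pow_mem_of_mem _ hlm p (Nat.pos_of_ne_zero hp))
        (Ideal.mul_mem_right _ _ hϖm)
    exact (IsLocalRing.mem_maximalIdeal _).mp hεm ε.isUnit
  obtain ⟨lu, hlu⟩ := hlunit
  -- `t' = l s' + ϖ r₀`
  have h2 : ϖ ∣ t' - l * s' := by
    rw [← hf0, map_sub, map_mul, hlbar, mul_comm, sub_self]
  obtain ⟨r₀, hr₀⟩ := h2
  -- the element `θ = z t' / s'`
  have hs'F : algebraMap R F' s' ≠ 0 := by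
    rw [Ne, map_eq_zero_iff _ hinj']; exact hs'0
  have hsF : algebraMap R F' s ≠ 0 := by
    rw [Ne, map_eq_zero_iff _ hinj']; exact hs0
  set θ : F' := z * algebraMap R F' t' * (algebraMap R F' s')⁻¹ with hθ
  have hus' : algebraMap F F' u * algebraMap R F' s = algebraMap R F' a := by
    rw [IsScalarTower.algebraMap_apply R F F' s, IsScalarTower.algebraMap_apply R F F' a,
      ← map_mul, hus]
  have hθp : θ ^ p = algebraMap R F' (ε : R) := by
    have h3 := congrArg (algebraMap R F') hnf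
    simp only [map_mul, map_pow] at h3
    rw [← hus'] at h3
    have h4 : algebraMap F F' u * algebraMap R F' t' ^ p =
        algebraMap R F' (ε : R) * algebraMap R F' s' ^ p := by
      have : algebraMap R F' s * (algebraMap F F' u * algebraMap R F' t' ^ p) =
          algebraMap R F' s * (algebraMap R F' (ε : R) * algebraMap R F' s' ^ p) := by
        rw [← mul_assoc, mul_comm (algebraMap R F' s), h3]; ring
      exact mul_left_cancel₀ hsF this
    rw [hθ, mul_pow, mul_pow, hz, h4, inv_pow, mul_assoc,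
      mul_inv_cancel₀ (pow_ne_zero p hs'F), mul_one]
  have hθint : IsIntegral R θ :=
    IsIntegral.of_pow (Nat.pos_of_ne_zero hp) (hθp ▸ isIntegral_algebraMap)
  refine ⟨θ * algebraMap R F' ((lu⁻¹ : Rˣ) : R), hθint.mul isIntegral_algebraMap, ?_⟩
  refine ⟨l * t', ?_, -(θ * algebraMap R F' r₀), (hθint.mul isIntegral_algebraMap).neg, ?_⟩
  · rw [Ideal.mem_span_singleton]
    intro h
    rcases hϖ.dvd_or_dvd h with h | h
    · exact hϖ.not_isUnit (isUnit_of_dvd_unit h (hlu ▸ lu.isUnit))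
    · exact ht' h
  · have hl1 : algebraMap R F' l * algebraMap R F' ((lu⁻¹ : Rˣ) : R) = 1 := by
      rw [← map_mul, ← hlu, Units.mul_inv, map_one]
    have hzθ : z * algebraMap R F' t' = θ * algebraMap R F' s' := by
      rw [hθ, mul_assoc (z * _), inv_mul_cancel₀ hs'F, mul_one]
    have ht'eq : algebraMap R F' t' = algebraMap R F' l * algebraMap R F' s' +
        algebraMap R F' ϖ * algebraMap R F' r₀ := by
      rw [← map_mul, ← map_mul, ← map_add, ← hr₀]
      congr 1; ring
    calc algebraMap R F' (l * t') * (z - θ * algebraMap R F' ((lu⁻¹ : Rˣ) : R))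
        = algebraMap R F' l * (z * algebraMap R F' t') -
            (algebraMap R F' l * algebraMap R F' ((lu⁻¹ : Rˣ) : R)) * θ * algebraMap R F' t' := by
          rw [map_mul]; ring
      _ = algebraMap R F' l * (θ * algebraMap R F' s') - θ * algebraMap R F' t' := by
          rw [hzθ, hl1, one_mul]
      _ = algebraMap R F' ϖ * -(θ * algebraMap R F' r₀) := by
          rw [ht'eq]; ring

end Local

end Fermat.Agent.S18.H334
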