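import Mathlib
import Fermat.Agent.S18.H754.KummerSpec
import Fermat.Agent.S18.H334.LocalUFD
import Fermat.Agent.S18.H334.KummerIdem
import Fermat.Agent.S18.H334.KummerLocal

/-!
# S18, Route K, piece P4: `KummerLiftStatement`

Proof of the frozen statement `Fermat.Agent.S18.H754.KummerLiftStatement`
(`Fermat/Agent/S18/H754/KummerSpec.lean`): every Kummer idempotent
`e_η = p⁻¹ ∑_{a<p} η^a z^a` is congruent modulo `ϖ O'` to an element integral over `B`.

Route (no discriminants): local Kummer congruence `exists_isIntegral_inPiO_sub` in the regular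
local rings `B_𝔪` (`𝔪 ∋ ϖ` maximal), descent of denominators, ideal-of-denominators argument.
-/

set_option autoImplicit false
set_option linter.unusedSectionVars false
set_option linter.unusedVariables false
set_option linter.style.haveILetI false

noncomputable section

namespace Fermat.Agent.S18.H334

open Polynomial Fermat.Agent.S18.H754

section Poly

variable {R : Type*} [CommRing R] [IsDomain R] {F' : Type*} [Field F'] [Algebra R F']

/-- `z ≡ z₁ mod ϖ O'` implies `e_η(z) ≡ e_η(z₁) mod ϖ O'`, and `e_η(z₁)` is integral if `z₁` is. -/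
theorem inPiO_kummerIdem_sub {ϖ : R} (hϖ : Prime ϖ) {p : ℕ} (hpu : IsUnit (p : R)) (η : R)
    {z z₁ : F'} (hz₁ : IsIntegral R z₁) (h : InPiO ϖ (z - z₁)) :
    IsIntegral R (kummerIdem p η z₁) ∧ InPiO ϖ (kummerIdem p η z₁ - kummerIdem p η z) := by
  have hpinvI : IsIntegral R ((p : F')⁻¹) := by
    rw [natCast_inv_eq hpu]; exact isIntegral_algebraMap
  have ht₁ : IsIntegral R (algebraMap R F' η * z₁) := isIntegral_algebraMap.mul hz₁
  constructor
  · rw [kummerIdem_eq]
    exact hpinvI.mul (IsIntegral.sum _ fun a _ => ht₁.pow a)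
  · have hz₁O : InO ϖ z₁ := InO.of_isIntegral hϖ hz₁
    have hzO : InO ϖ z := by
      have := (inPiO_inO h).add hϖ hz₁O
      rwa [sub_add_cancel] at this
    have htO : InO ϖ (algebraMap R F' η * z) := (InO.of_algebraMap hϖ η).mul hϖ hzO
    have ht₁O : InO ϖ (algebraMap R F' η * z₁) := InO.of_isIntegral hϖ ht₁
    have hsub : InPiO ϖ (algebraMap R F' η * z₁ - algebraMap R F' η * z) := by
      have := inPiO_inO_mul hϖ (InO.of_algebraMap hϖ η) (inPiO_neg h)
      refine inPiO_congr ?_ this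
      ring
    have hpow : ∀ a : ℕ, InPiO ϖ ((algebraMap R F' η * z₁) ^ a - (algebraMap R F' η * z) ^ a) := by
      intro a
      induction a with
      | zero =>
        rw [pow_zero, pow_zero, sub_self]
        exact ⟨1, one_notMem_span hϖ, 0, isIntegral_zero, by rw [mul_zero, mul_zero]⟩
      | succ a ih =>
        have h1 := inPiO_inO_mul hϖ ht₁O ih
        have h2 := inPiO_mul_inO hϖ hsub (htO.pow hϖ a)
        refine inPiO_congr ?_ (inPiO_add hϖ h1 h2)
        ring
    have hsum := inPiO_sum hϖ (Finset.range p)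
      (fun a => (algebraMap R F' η * z₁) ^ a - (algebraMap R F' η * z) ^ a) (fun a _ => hpow a)
    have := inPiO_inO_mul hϖ (InO.of_isIntegral hϖ hpinvI) hsum
    refine inPiO_congr ?_ this
    rw [kummerIdem_eq, kummerIdem_eq, Finset.sum_sub_distrib, mul_sub]

end Poly

section Descent

variable {B : Type*} [CommRing B] [IsDomain B]
  {F' : Type*} [Field F'] [Algebra B F']
  (𝔪 : Ideal B) [𝔪.IsPrime]
  (R : Type*) [CommRing R] [Algebra B R] [IsLocalization.AtPrime R 𝔪]
  [Algebra R F'] [IsScalarTower B R F']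

/-- Descent of a local congruence to `B`, at the price of a factor `r ∉ 𝔪`. -/
theorem exists_descent {ϖ : B} (hϖ : Prime ϖ) (hϖ𝔪 : ϖ ∈ 𝔪) (e bR : F')
    (hbR : IsIntegral R bR) (h : InPiO (algebraMap B R ϖ) (bR - e)) :
    ∃ r : B, r ∉ 𝔪 ∧ ∃ b : F', IsIntegral B b ∧ InPiO ϖ (b - algebraMap B F' r * e) := by
  obtain ⟨sR, hsR, cR, hcR, hEq⟩ := h
  obtain ⟨⟨sB, σ₁⟩, hσ₁⟩ := IsLocalization.surj 𝔪.primeCompl sR
  simp only at hσ₁
  obtain ⟨σ₂, hσ₂⟩ :=
    IsIntegral.exists_multiple_integral_of_isLocalization 𝔪.primeCompl (Rₘ := R) cR hcR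
  obtain ⟨σ₃, hσ₃⟩ :=
    IsIntegral.exists_multiple_integral_of_isLocalization 𝔪.primeCompl (Rₘ := R) bR hbR
  have hndvd : ∀ σ : 𝔪.primeCompl, ¬ ϖ ∣ (σ : B) := by
    intro σ hdvd
    obtain ⟨c, hc⟩ := hdvd
    exact σ.2 (by rw [hc]; exact 𝔪.mul_mem_right c hϖ𝔪)
  have hsB : ¬ ϖ ∣ sB := by
    rintro ⟨c, hc⟩
    apply hsR
    rw [Ideal.mem_span_singleton]
    obtain ⟨v, hv⟩ := IsLocalization.map_units R σ₁
    refine ⟨algebraMap B R c * ((v⁻¹ : Rˣ) : R), ?_⟩
    have h1 : sR * (v : R) = algebraMap B R ϖ * algebraMap B R c := by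
      rw [hv, hσ₁, hc, map_mul]
    calc sR = sR * (v : R) * ((v⁻¹ : Rˣ) : R) := by rw [mul_assoc, Units.mul_inv, mul_one]
      _ = algebraMap B R ϖ * (algebraMap B R c * ((v⁻¹ : Rˣ) : R)) := by rw [h1]; ring
  refine ⟨σ₃, σ₃.2, σ₃ • bR, hσ₃, sB * σ₂, ?_, algebraMap B F' (σ₁ * σ₃) * (σ₂ • cR),
    isIntegral_algebraMap.mul hσ₂, ?_⟩
  · rw [Ideal.mem_span_singleton]
    intro hdvd
    rcases hϖ.dvd_or_dvd hdvd with h | h
    · exact hsB h
    · exact hndvd σ₂ h
  · have hsR' : algebraMap R F' sR * algebraMap B F' (σ₁ : B) = algebraMap B F' sB := by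
      rw [IsScalarTower.algebraMap_apply B R F' (σ₁ : B), IsScalarTower.algebraMap_apply B R F' sB,
        ← map_mul, hσ₁]
    have hϖ' : algebraMap R F' (algebraMap B R ϖ) = algebraMap B F' ϖ :=
      (IsScalarTower.algebraMap_apply B R F' ϖ).symm
    rw [hϖ'] at hEq
    have hsm₂ : σ₂ • cR = algebraMap B F' (σ₂ : B) * cR := by
      rw [Submonoid.smul_def, Algebra.smul_def]
    have hsm₃ : σ₃ • bR = algebraMap B F' (σ₃ : B) * bR := by
      rw [Submonoid.smul_def, Algebra.smul_def]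
    rw [hsm₂, hsm₃, map_mul, map_mul, ← hsR']
    calc algebraMap R F' sR * algebraMap B F' (σ₁ : B) * algebraMap B F' (σ₂ : B) *
          (algebraMap B F' (σ₃ : B) * bR - algebraMap B F' (σ₃ : B) * e)
        = algebraMap B F' (σ₁ : B) * algebraMap B F' (σ₂ : B) * algebraMap B F' (σ₃ : B) *
            (algebraMap R F' sR * (bR - e)) := by ring
      _ = algebraMap B F' ϖ * (algebraMap B F' (σ₁ : B) * algebraMap B F' (σ₃ : B) *
            (algebraMap B F' (σ₂ : B) * cR)) := by rw [hEq]; ring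

end Descent

section Transfer

variable {B : Type*} [CommRing B] [IsDomain B]
  (𝔪 : Ideal B) [𝔪.IsPrime]
  (R : Type*) [CommRing R] [Algebra B R] [IsLocalization.AtPrime R 𝔪]

theorem algebraMap_injective_atPrime {B : Type*} [CommRing B] [IsDomain B]
    (𝔪 : Ideal B) [𝔪.IsPrime]
    (R : Type*) [CommRing R] [Algebra B R] [IsLocalization.AtPrime R 𝔪] :
    Function.Injective (algebraMap B R) :=
  IsLocalization.injective R (M := 𝔪.primeCompl) (fun x hx =>
    mem_nonZeroDivisors_of_ne_zero (fun h => hx (h ▸ 𝔪.zero_mem)))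

/-- `ϖ` stays prime in the localisation at a prime containing it. -/
theorem prime_algebraMap_atPrime {ϖ : B} (hϖ : Prime ϖ) (hϖ𝔪 : ϖ ∈ 𝔪) :
    Prime (algebraMap B R ϖ) := by
  have hne : algebraMap B R ϖ ≠ 0 := by
    rw [Ne, map_eq_zero_iff _ (algebraMap_injective_atPrime 𝔪 R)]
    exact hϖ.ne_zero
  have hprime : (Ideal.span {ϖ} : Ideal B).IsPrime := (Ideal.span_singleton_prime hϖ.ne_zero).mpr hϖ
  have hdisj : Disjoint (𝔪.primeCompl : Set B) (Ideal.span {ϖ} : Ideal B) := by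
    rw [Set.disjoint_left]
    intro x hx hx'
    apply hx
    obtain ⟨c, rfl⟩ := Ideal.mem_span_singleton.mp hx'
    exact 𝔪.mul_mem_right c hϖ𝔪
  have h := IsLocalization.isPrime_of_isPrime_disjoint 𝔪.primeCompl R _ hprime hdisj
  rw [Ideal.map_span, Set.image_singleton] at h
  exact (Ideal.span_singleton_prime hne).mp h

/-- Elements outside `(ϖ)` stay outside `(ϖ)` in the localisation. -/
theorem notMem_span_algebraMap_atPrime {ϖ : B} (hϖ : Prime ϖ) (hϖ𝔪 : ϖ ∈ 𝔪) {s : B}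
    (hs : s ∉ Ideal.span {ϖ}) : algebraMap B R s ∉ Ideal.span {algebraMap B R ϖ} := by
  rw [Ideal.mem_span_singleton] at hs ⊢
  rintro ⟨ρ, hρ⟩
  obtain ⟨⟨b, σ⟩, hσ⟩ := IsLocalization.surj 𝔪.primeCompl ρ
  simp only at hσ
  have h1 : algebraMap B R (s * σ) = algebraMap B R (ϖ * b) := by
    rw [map_mul, map_mul, hρ, ← hσ]; ring
  have h2 := algebraMap_injective_atPrime 𝔪 R h1
  have h3 : ϖ ∣ s * σ := ⟨b, h2⟩
  rcases hϖ.dvd_or_dvd h3 with h | ⟨c, hc⟩
  · exact hs h
  · exact σ.2 (by rw [hc]; exact 𝔪.mul_mem_right c hϖ𝔪)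

variable [IsNoetherianRing B]

/-- `RegularAlong` at `𝔪` makes `B_𝔪 ⧸ (ϖ)` a principal ideal ring. -/
theorem isPrincipalIdealRing_quotient_atPrime {ϖ : B} (hϖ : Prime ϖ) (hϖ𝔪 : ϖ ∈ 𝔪)
    (hreg : ∃ t ∈ 𝔪, ∀ a ∈ 𝔪, ∃ s : B, s ∉ 𝔪 ∧ s * a ∈ Ideal.span {ϖ, t}) :
    IsPrincipalIdealRing (R ⧸ Ideal.span {algebraMap B R ϖ}) := by
  haveI : IsLocalRing R := IsLocalization.AtPrime.isLocalRing R 𝔪
  haveI : IsNoetherianRing R := IsLocalization.isNoetherianRing 𝔪.primeCompl R inferInstance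
  have hϖR : Prime (algebraMap B R ϖ) := prime_algebraMap_atPrime 𝔪 R hϖ hϖ𝔪
  haveI hprimeI : (Ideal.span {algebraMap B R ϖ} : Ideal R).IsPrime :=
    (Ideal.span_singleton_prime hϖR.ne_zero).mpr hϖR
  haveI : IsDomain (R ⧸ Ideal.span {algebraMap B R ϖ}) :=
    (Ideal.Quotient.isDomain_iff_prime _).mpr hprimeI
  set f := Ideal.Quotient.mk (Ideal.span {algebraMap B R ϖ} : Ideal R) with hf
  have hfsurj : Function.Surjective f := Ideal.Quotient.mk_surjective
  haveI : IsLocalRing (R ⧸ Ideal.span {algebraMap B R ϖ}) := IsLocalRing.of_surjective' f hfsurj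
  obtain ⟨t, ht𝔪, ht⟩ := hreg
  have hmaxR : ∀ a ∈ 𝔪, algebraMap B R a ∈ IsLocalRing.maximalIdeal R := by
    intro a ha
    rw [← IsLocalization.AtPrime.map_eq_maximalIdeal 𝔪 R]
    exact Ideal.mem_map_of_mem _ ha
  have hϖm : algebraMap B R ϖ ∈ IsLocalRing.maximalIdeal R := hmaxR ϖ hϖ𝔪
  have hprinc : (IsLocalRing.maximalIdeal (R ⧸ Ideal.span {algebraMap B R ϖ})).IsPrincipal := by
    refine ⟨⟨f (algebraMap B R t), ?_⟩⟩
    apply le_antisymm
    · intro x hx
      obtain ⟨r, rfl⟩ := hfsurj x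
      have hr : r ∈ IsLocalRing.maximalIdeal R := by
        rw [IsLocalRing.mem_maximalIdeal] at hx ⊢
        exact fun hu => hx (hu.map f)
      rw [← IsLocalization.AtPrime.map_eq_maximalIdeal 𝔪 R,
        IsLocalization.mem_map_algebraMap_iff 𝔪.primeCompl] at hr
      obtain ⟨⟨a, σ⟩, hσ⟩ := hr
      simp only at hσ
      obtain ⟨s, hs, hsa⟩ := ht a a.2
      obtain ⟨x₁, y₁, hxy⟩ := Ideal.mem_span_pair.mp hsa
      obtain ⟨v, hv⟩ := IsLocalization.map_units R (σ * ⟨s, hs⟩ : 𝔪.primeCompl)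
      have h1 : r * (v : R) = algebraMap B R x₁ * algebraMap B R ϖ +
          algebraMap B R y₁ * algebraMap B R t := by
        rw [hv, Submonoid.coe_mul, map_mul, ← mul_assoc, hσ, ← map_mul, ← map_mul, ← map_mul,
          ← map_add, hxy, mul_comm]
      have h2 : r = ((v⁻¹ : Rˣ) : R) * algebraMap B R x₁ * algebraMap B R ϖ +
          ((v⁻¹ : Rˣ) : R) * algebraMap B R y₁ * algebraMap B R t := by
        calc r = r * (v : R) * ((v⁻¹ : Rˣ) : R) := by rw [mul_assoc, Units.mul_inv, mul_one]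
          _ = _ := by rw [h1]; ring
      have h3 : f r = f (((v⁻¹ : Rˣ) : R) * algebraMap B R y₁) * f (algebraMap B R t) := by
        rw [h2, map_add, map_mul, map_mul _ _ (algebraMap B R t)]
        have : f (algebraMap B R ϖ) = 0 := by
          rw [hf, Ideal.Quotient.eq_zero_iff_mem]
          exact Ideal.mem_span_singleton_self _
        rw [this, mul_zero, zero_add]
      rw [h3]
      exact Submodule.smul_mem _ _ (Submodule.mem_span_singleton_self _)
    · rw [Submodule.span_le, Set.singleton_subset_iff, SetLike.mem_coe,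
        IsLocalRing.mem_maximalIdeal]
      intro hu
      obtain ⟨y, hy⟩ := hu.exists_right_inv
      obtain ⟨y', rfl⟩ := hfsurj y
      have h1 : f (algebraMap B R t * y' - 1) = 0 := by
        rw [map_sub, map_mul, hy, map_one, sub_self]
      rw [hf, Ideal.Quotient.eq_zero_iff_mem, Ideal.mem_span_singleton] at h1
      obtain ⟨c, hc⟩ := h1
      have h2 : (1 : R) ∈ IsLocalRing.maximalIdeal R := by
        have : (1 : R) = algebraMap B R t * y' - algebraMap B R ϖ * c := by rw [← hc]; ring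
        rw [this]
        exact Ideal.sub_mem _ (Ideal.mul_mem_right _ _ (hmaxR t ht𝔪))
          (Ideal.mul_mem_right _ _ hϖm)
      exact (IsLocalRing.mem_maximalIdeal _).mp h2 isUnit_one
  exact ((tfae_of_isNoetherianRing_of_isLocalRing_of_isDomain
    (R := R ⧸ Ideal.span {algebraMap B R ϖ})).out 4 0).mp hprinc

variable {F : Type*} [Field F] [Algebra B F] [Algebra R F] [IsScalarTower B R F]

theorem oneModPi_atPrime {ϖ : B} (hϖ : Prime ϖ) (hϖ𝔪 : ϖ ∈ 𝔪) {u : F} (hu1 : OneModPi ϖ u) :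
    OneModPi (algebraMap B R ϖ) u := by
  obtain ⟨a, s, hs, has, hus⟩ := hu1
  refine ⟨algebraMap B R a, algebraMap B R s, notMem_span_algebraMap_atPrime 𝔪 R hϖ hϖ𝔪 hs, ?_, ?_⟩
  · obtain ⟨d, hd⟩ := Ideal.mem_span_singleton.mp has
    rw [Ideal.mem_span_singleton]
    exact ⟨algebraMap B R d, by rw [← map_sub, hd, map_mul]⟩
  · rw [← IsScalarTower.algebraMap_apply B R F, ← IsScalarTower.algebraMap_apply B R F, hus]

theorem divisibleDivisor_atPrime {B : Type*} [CommRing B] [IsDomain B]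
    (𝔪 : Ideal B) [𝔪.IsPrime]
    (R : Type*) [CommRing R] [Algebra B R] [IsLocalization.AtPrime R 𝔪]
    {F : Type*} [Field F] [Algebra B F] [Algebra R F] [IsScalarTower B R F]
    {p : ℕ} {u : F} (hdiv : DivisibleDivisor B p u) :
    DivisibleDivisor R p u := by
  intro P hP hPh
  haveI := hP
  have hcomap : (P.comap (algebraMap B R)).IsPrime := Ideal.comap_isPrime _ P
  have hheight : (P.comap (algebraMap B R)).height = 1 := by
    have := IsLocalization.height_under 𝔪.primeCompl P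
    rw [← hPh, ← this]
  obtain ⟨t, a, s, ha, hs, h⟩ := hdiv _ hcomap hheight
  refine ⟨t, algebraMap B R a, algebraMap B R s, fun h' => ha (Ideal.mem_comap.mpr h'),
    fun h' => hs (Ideal.mem_comap.mpr h'), ?_⟩
  rw [← IsScalarTower.algebraMap_apply B R F, ← IsScalarTower.algebraMap_apply B R F, h]

end Transfer

section LocalStep

variable {B : Type*} [CommRing B] [IsDomain B] [IsNoetherianRing B]
  {F : Type*} [Field F] [Algebra B F] [IsFractionRing B F]
  {F' : Type*} [Field F'] [Algebra F F'] [Algebra B F'] [IsScalarTower B F F']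

theorem kummerIdem_algebraMap (R : Type*) [CommRing R] [Algebra B R] [Algebra R F']
    [IsScalarTower B R F'] (p : ℕ) (η : B) (z : F') :
    kummerIdem p (algebraMap B R η) z = kummerIdem p η z := by
  unfold kummerIdem
  congr 1
  refine Finset.sum_congr rfl fun a _ => ?_
  rw [← map_pow, ← IsScalarTower.algebraMap_apply B R F']

/-- The local step: at a prime `𝔪 ∋ ϖ` along which the special fibre is regular, the Kummer
idempotent lifts after multiplication by some `r ∉ 𝔪`. -/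
theorem exists_local_lift (𝔪 : Ideal B) [𝔪.IsPrime]
    (R : Type*) [CommRing R] [Algebra B R] [IsLocalization.AtPrime R 𝔪]
    [Algebra R F] [IsScalarTower B R F] [Algebra R F'] [IsScalarTower R F F']
    [IsScalarTower B R F']
    {ϖ : B} (hϖ : Prime ϖ) (hϖ𝔪 : ϖ ∈ 𝔪)
    (hreg : ∃ t ∈ 𝔪, ∀ a ∈ 𝔪, ∃ s : B, s ∉ 𝔪 ∧ s * a ∈ Ideal.span {ϖ, t})
    {p : ℕ} (hp : p ≠ 0) (hpu : IsUnit (p : B)) {u : F} {z : F'}
    (hz : z ^ p = algebraMap F F' u) (hu1 : OneModPi ϖ u) (hdiv : DivisibleDivisor B p u)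
    (η : B) :
    ∃ r : B, r ∉ 𝔪 ∧ ∃ b : F', IsIntegral B b ∧
      InPiO ϖ (b - algebraMap B F' r * kummerIdem p η z) := by
  haveI : IsLocalRing R := IsLocalization.AtPrime.isLocalRing R 𝔪
  haveI : IsNoetherianRing R := IsLocalization.isNoetherianRing 𝔪.primeCompl R inferInstance
  have hle' : 𝔪.primeCompl ≤ nonZeroDivisors B := fun x hx =>
    mem_nonZeroDivisors_of_ne_zero (fun h => hx (h ▸ 𝔪.zero_mem))
  haveI : IsDomain R := IsLocalization.isDomain_of_le_nonZeroDivisors (S := R) hle'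
  haveI : IsFractionRing R F :=
    IsFractionRing.isFractionRing_of_isDomain_of_isLocalization 𝔪.primeCompl R F
  have hϖR : Prime (algebraMap B R ϖ) := prime_algebraMap_atPrime 𝔪 R hϖ hϖ𝔪
  haveI : IsPrincipalIdealRing (R ⧸ Ideal.span {algebraMap B R ϖ}) :=
    isPrincipalIdealRing_quotient_atPrime 𝔪 R hϖ hϖ𝔪 hreg
  obtain ⟨z₁, hz₁, hcong⟩ := exists_isIntegral_inPiO_sub (R := R) (algebraMap B R ϖ) hϖR hp hz
    (oneModPi_atPrime 𝔪 R hϖ hϖ𝔪 hu1) (divisibleDivisor_atPrime 𝔪 R hdiv)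
  have hpuR : IsUnit (p : R) := by
    have := hpu.map (algebraMap B R)
    rwa [map_natCast] at this
  obtain ⟨hint, hsub⟩ := inPiO_kummerIdem_sub hϖR hpuR (algebraMap B R η) hz₁ hcong
  rw [kummerIdem_algebraMap R p η z] at hsub
  have := exists_descent 𝔪 R hϖ hϖ𝔪 (kummerIdem p η z) (kummerIdem p (algebraMap B R η) z₁)
    hint hsub
  exact this

end LocalStep

section Global

/-- **P4**: the frozen statement `KummerLiftStatement` of `H754/KummerSpec.lean`. -/
theorem kummerLiftStatement : KummerLiftStatement := by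
  intro B _ _ _ _ F _ _ _ F' _ _ _ _ ϖ hϖ hreg p hp hpu u z hz hu hu1 hdiv η hη
  have he : InO ϖ (kummerIdem p η z) := inO_kummerIdem hϖ hp.pos hpu hz hu1 η
  -- the ideal of denominators
  let I : Ideal B :=
    { carrier := {r | ∃ b : F', IsIntegral B b ∧
        InPiO ϖ (b - algebraMap B F' r * kummerIdem p η z)}
      zero_mem' := ⟨0, isIntegral_zero, by
        rw [map_zero, zero_mul, sub_self]
        exact ⟨1, one_notMem_span hϖ, 0, isIntegral_zero, by rw [mul_zero, mul_zero]⟩⟩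
      add_mem' := by
        rintro r₁ r₂ ⟨b₁, hb₁, h₁⟩ ⟨b₂, hb₂, h₂⟩
        refine ⟨b₁ + b₂, hb₁.add hb₂, inPiO_congr ?_ (inPiO_add hϖ h₁ h₂)⟩
        rw [map_add]; ring
      smul_mem' := by
        rintro c r ⟨b, hb, h⟩
        refine ⟨algebraMap B F' c * b, isIntegral_algebraMap.mul hb,
          inPiO_congr ?_ (inPiO_inO_mul hϖ (InO.of_algebraMap hϖ c) h)⟩
        rw [smul_eq_mul, map_mul]; ring }
  have hI : I = ⊤ := by
    by_contra hne
    obtain ⟨𝔪, hmax, hle⟩ := Ideal.exists_le_maximal I hne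
    haveI := hmax
    have hϖI : ϖ ∈ I := by
      refine ⟨0, isIntegral_zero, ?_⟩
      have h1 : InO ϖ (algebraMap B F' (-1) * kummerIdem p η z) :=
        (InO.of_algebraMap hϖ (-1)).mul hϖ he
      refine inPiO_of_eq_mul h1 ?_
      rw [map_neg, map_one]; ring
    have hϖ𝔪 : ϖ ∈ 𝔪 := hle hϖI
    have hle' : 𝔪.primeCompl ≤ nonZeroDivisors B := fun x hx =>
      mem_nonZeroDivisors_of_ne_zero (fun h => hx (h ▸ 𝔪.zero_mem))
    letI : Algebra (Localization.AtPrime 𝔪) F :=
      IsLocalization.localizationAlgebraOfSubmonoidLe (Localization.AtPrime 𝔪) F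
        𝔪.primeCompl (nonZeroDivisors B) hle'
    haveI : IsScalarTower B (Localization.AtPrime 𝔪) F :=
      IsLocalization.localization_isScalarTower_of_submonoid_le (Localization.AtPrime 𝔪) F
        𝔪.primeCompl (nonZeroDivisors B) hle'
    letI : Algebra (Localization.AtPrime 𝔪) F' :=
      ((algebraMap F F').comp (algebraMap (Localization.AtPrime 𝔪) F)).toAlgebra
    haveI : IsScalarTower (Localization.AtPrime 𝔪) F F' :=
      IsScalarTower.of_algebraMap_eq (fun _ => rfl)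
    haveI : IsScalarTower B (Localization.AtPrime 𝔪) F' :=
      IsScalarTower.of_algebraMap_eq (fun x => by
        rw [IsScalarTower.algebraMap_apply (Localization.AtPrime 𝔪) F F',
          ← IsScalarTower.algebraMap_apply B (Localization.AtPrime 𝔪) F,
          ← IsScalarTower.algebraMap_apply B F F'])
    obtain ⟨r, hr, b, hb, hcong⟩ := exists_local_lift 𝔪 (Localization.AtPrime 𝔪) hϖ hϖ𝔪
      (hreg 𝔪 hmax hϖ𝔪) hp.ne_zero hpu hz hu1 hdiv η
    exact hr (hle ⟨b, hb, hcong⟩)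
  have h1 : (1 : B) ∈ I := hI ▸ Submodule.mem_top
  obtain ⟨b, hb, hcong⟩ := h1
  refine ⟨b, hb, inPiO_congr ?_ hcong⟩
  rw [map_one, one_mul]

end Global

end Fermat.Agent.S18.H334
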